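import Mathlib
import Fermat.Agent.S16.NormQExp
import Fermat.Agent.S16.SturmIntegral
import Fermat.Agent.M2F.Defs

/-!
# S36 / [AUX-H], step 0 (helper10): the Sturm bound at prime level, vanishing form

`sturm_zero` : a modular form `f` of even weight `w` on `Γ₀(p)` (`p` prime) whose `q`-expansion
coefficients of index `≤ w (p + 1) / 12` vanish is zero.

Proof: the norm `N(f)` to level one (`S16.NormQExp.normOne`) has `q`-expansion
`A · (…)` with `A` the `q`-expansion of `f` (`expand_qExpansion_normOne`), so its coefficients of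
index `≤ w (p + 1) / 12` vanish; the level-one Sturm bound (`S16.SturmIntegral`) gives `N(f) = 0`,
hence `f = 0`.
-/

set_option autoImplicit false

namespace Fermat.Agent.S36.Haupt.Sturm

open UpperHalfPlane ModularForm CongruenceSubgroup PowerSeries
open scoped MatrixGroups Manifold ModularForm
open Fermat.Agent.S16.NormQExp Fermat.Agent.S16.SturmIntegral Fermat.Agent.M2F

/-- If `X ^ m ∣ A` then the coefficients of index `< m` of any `N` with
`expand p N = expand p A * B` vanish. -/
theorem coeff_eq_zero_of_expand {p : ℕ} (hp : p ≠ 0) {A N B : ℂ⟦X⟧} {m : ℕ}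
    (hA : ∀ n < m, coeff n A = 0)
    (h : expand p hp N = expand p hp A * B) : ∀ n < m, coeff n N = 0 := by
  intro n hn
  have hdvd : (PowerSeries.X : ℂ⟦X⟧) ^ m ∣ A := by
    rw [X_pow_dvd_iff]
    exact hA
  obtain ⟨A', rfl⟩ := hdvd
  have h1 : coeff (p * n) (expand p hp N) = coeff n N := coeff_expand_mul p hp N n
  have e : expand p hp ((PowerSeries.X : ℂ⟦X⟧) ^ m * A') =
      (PowerSeries.X : ℂ⟦X⟧) ^ (p * m) * expand p hp A' := by
    rw [map_mul (expand p hp), map_pow (expand p hp), expand_X, ← pow_mul]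
  have hlt : p * n < p * m := Nat.mul_lt_mul_of_pos_left hn (Nat.pos_of_ne_zero hp)
  rw [← h1, h, e, mul_assoc, coeff_X_pow_mul', if_neg (by omega)]

/-- **Sturm bound at prime level, vanishing form.** -/
theorem sturm_zero_form {p : ℕ} [hp : Fact p.Prime] {k : ℤ} {w : ℕ} (hk : k = (w : ℤ))
    (hw : Even w) (F : ModularForm (Gamma0 p) k)
    (h : ∀ n ≤ w * (p + 1) / 12, coeff n (qExpansion 1 F) = 0) : F = 0 := by
  rw [← normOne_eq_zero_iff]
  have hk' : k * ((p : ℤ) + 1) = ((w * (p + 1) : ℕ) : ℤ) := by rw [hk]; push_cast; ring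
  have hw' : Even (w * (p + 1)) := hw.mul_right _
  have h0 : ∀ n ≤ w * (p + 1) / 12, coeff n (qExpansion 1 (normOne F)) ∈ (⊥ : AddSubgroup ℂ) := by
    intro n hn
    rw [AddSubgroup.mem_bot]
    exact coeff_eq_zero_of_expand hp.out.ne_zero (m := w * (p + 1) / 12 + 1)
      (fun i hi => h i (by omega)) (expand_qExpansion_normOne F) n (by omega)
  have h1 := sturm_addSubgroup_even ⊥ hk' hw' (normOne F) h0
  have h2 : qExpansion 1 (normOne F) = 0 := by
    ext n
    have := h1 n
    rwa [AddSubgroup.mem_bot] at this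
  exact (ModularForm.qExpansion_eq_zero_iff one_pos
    (by rw [Subgroup.strictPeriods_SL2Z]; exact AddSubgroup.mem_zmultiples 1) (normOne F)).mp h2

/-- **Sturm bound at prime level, vanishing form**, for functions with `IsMF`. -/
theorem sturm_zero {p : ℕ} [hp : Fact p.Prime] {k : ℤ} {w : ℕ} (hk : k = (w : ℤ))
    (hw : Even w) {f : ℍ → ℂ} (hf : IsMF (Gamma0 p) k f)
    (h : ∀ n ≤ w * (p + 1) / 12, coeff n (qExpansion 1 f) = 0) : f = 0 := by
  have : NeZero p := ⟨hp.out.ne_zero⟩
  have h1 := sturm_zero_form hk hw (hf.toModularForm (Gamma0 p) k) (by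
    intro n hn
    rw [IsMF.coe_toModularForm]
    exact h n hn)
  have h2 := congrArg (fun F : ModularForm (Gamma0 p) k => (F : ℍ → ℂ)) h1
  simpa using h2

end Fermat.Agent.S36.Haupt.Sturm
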