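import Mathlib
import Fermat.Agent.S36.Haupt.Sturm
import Fermat.Agent.S16.EisP
import Fermat.Agent.S16.LIntForms
import Fermat.Agent.M2F.LevelRaise
import Fermat.Agent.S24.QExpScale

/-!
# S36 / [AUX-H], step 1 (helper10): tools for ring-of-forms identities at prime level

* `isHol_of_isMF` : a modular form on `Γ₀(N)` (function-level predicate `M2F.IsMF`) is holomorphic,
  `1`-periodic and bounded at `i∞` (`S24.QExp.IsHol`), so `qExpansion 1` is additive and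
  multiplicative on such functions;
* `vp p G = G(p·)` and `isMF_vp` : level raising `M_k(SL₂(ℤ)) → M_k(Γ₀(p))`, with its `q`-expansion
  `coeff_qExpansion_vp`;
* the jets modulo `X³` : `jet : ℂ⟦X⟧ →+* ℂ⟦X⟧ ⧸ (X³)`, `jet_eq`, `coeff_eq_zero_of_jet_eq_zero`;
* `eq_zero_of_jet` : a modular form of even weight `w` on `Γ₀(p)` with `w (p + 1) / 12 ≤ 2` and
  vanishing `2`-jet of its `q`-expansion is zero.
-/

set_option autoImplicit false
set_option linter.unusedSectionVars false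

noncomputable section

namespace Fermat.Agent.S36.Haupt.Forms

open UpperHalfPlane ModularForm CongruenceSubgroup PowerSeries
open scoped MatrixGroups Manifold ModularForm
open Fermat.Agent.M2 Fermat.Agent.M2F Fermat.Agent.S24.QExp Fermat.Agent.S36.Haupt.Sturm

/-! ### `IsHol` for forms on `Γ₀(N)` -/

theorem isHol_of_isMF {N : ℕ} [NeZero N] {k : ℤ} {f : ℍ → ℂ} (hf : IsMF (Gamma0 N) k f) :
    IsHol f := by
  have hΓ := CongruenceSubgroup.one_mem_strictPeriods_Gamma0 N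
  have : Fact (IsCusp OnePoint.infty ((Gamma0 N : Subgroup SL(2, ℤ)) : Subgroup (GL (Fin 2) ℝ))) :=
    ⟨Subgroup.isCusp_of_mem_strictPeriods one_pos hΓ⟩
  set F := hf.toModularForm (Gamma0 N) k with hF
  have hc : (F : ℍ → ℂ) = f := IsMF.coe_toModularForm _ _ hf
  refine ⟨hf.holo, ?_, ?_⟩
  · have := SlashInvariantFormClass.periodic_comp_ofComplex F hΓ
    rw [hc] at this
    simpa using this
  · have := ModularFormClass.bdd_at_infty F
    rwa [hc] at this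

/-! ### Level raising -/

section Vp

variable (p : ℕ) [NeZero p]

/-- `G(p z)`. -/
def vp (G : ℍ → ℂ) : ℍ → ℂ := G ∘ JN.scaleH p

theorem vp_apply (G : ℍ → ℂ) (z : ℍ) : vp p G z = G (JN.scaleH p z) := rfl

theorem isMF_vp {k : ℤ} {G : ℍ → ℂ} (hG : IsMF ⊤ k G) : IsMF (Gamma0 p) k (vp p G) := by
  have h1 := (LevelRaise.isMF_slash_heckeDiag p hG).smul (((p : ℂ) ^ (k - 1))⁻¹)
  have hp : ((p : ℂ) ^ (k - 1)) ≠ 0 := zpow_ne_zero _ (by exact_mod_cast NeZero.ne p)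
  have e : ((p : ℂ) ^ (k - 1))⁻¹ • (G ∣[k] ModularForm.heckeDiagMatrix p) = vp p G := by
    funext z
    rw [Pi.smul_apply, LevelRaise.slash_heckeDiag_apply, smul_eq_mul, ← mul_assoc,
      inv_mul_cancel₀ hp, one_mul, vp_apply]
    congr 1
    apply UpperHalfPlane.ext
    rw [LevelRaise.coe_heckeDiag_smul, JN.coe_scaleH]
  rwa [e] at h1

theorem coeff_qExpansion_vp {G : ℍ → ℂ} (hG : IsHol G) (n : ℕ) :
    coeff n (qExpansion 1 (vp p G)) = if p ∣ n then coeff (n / p) (qExpansion 1 G) else 0 :=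
  qExpansion_comp_scaleH_coeff p hG n

theorem qExpansion_vp {G : ℍ → ℂ} (hG : IsHol G) :
    qExpansion 1 (vp p G) = expand p (NeZero.ne p) (qExpansion 1 G) := by
  ext n
  rw [coeff_qExpansion_vp p hG]
  split_ifs with h
  · obtain ⟨m, rfl⟩ := h
    rw [Nat.mul_div_cancel_left m (Nat.pos_of_ne_zero (NeZero.ne p)), coeff_expand_mul]
  · rw [coeff_expand_of_not_dvd p (NeZero.ne p) _ h]

end Vp

/-! ### Constant multiples -/

/-- the constant function -/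
def cst (c : ℂ) : ℍ → ℂ := fun _ => c

theorem isHol_cst (c : ℂ) : IsHol (cst c) := IsHol.const c

theorem qExpansion_cst (c : ℂ) : qExpansion 1 (cst c) = C c := IsHol.qExpansion_const c

theorem isMF_cst {Γ : Subgroup SL(2, ℤ)} (c : ℂ) : IsMF Γ 0 (cst c) := isMF_const c

/-! ### Jets modulo `X³` -/

/-- `(X³)`. -/
def I3 : Ideal ℂ⟦X⟧ := Ideal.span {(PowerSeries.X : ℂ⟦X⟧) ^ 3}

/-- reduction modulo `X³` -/
def jet : ℂ⟦X⟧ →+* ℂ⟦X⟧ ⧸ I3 := Ideal.Quotient.mk I3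

/-- the class of `X` -/
def xi : ℂ⟦X⟧ ⧸ I3 := jet PowerSeries.X

theorem xi_cube : xi ^ 3 = 0 := by
  rw [xi, ← map_pow, jet, Ideal.Quotient.eq_zero_iff_mem, I3]
  exact Ideal.subset_span rfl

theorem jet_eq_zero_iff (S : ℂ⟦X⟧) : jet S = 0 ↔ ∀ n < 3, coeff n S = 0 := by
  rw [jet, Ideal.Quotient.eq_zero_iff_mem, I3, Ideal.mem_span_singleton, X_pow_dvd_iff]

theorem coeff_quadratic (a b c : ℂ) (n : ℕ) :
    coeff n (PowerSeries.C a + PowerSeries.C b * PowerSeries.X +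
      PowerSeries.C c * PowerSeries.X ^ 2 : ℂ⟦X⟧) =
      if n = 0 then a else if n = 1 then b else if n = 2 then c else 0 := by
  rw [map_add, map_add, coeff_C, coeff_C_mul, coeff_C_mul, coeff_X, coeff_X_pow]
  by_cases h0 : n = 0
  · subst h0; norm_num
  by_cases h1 : n = 1
  · subst h1; norm_num
  by_cases h2 : n = 2
  · subst h2; norm_num
  · simp [h0, h1, h2]

/-- the jet of a series with given first three coefficients -/
theorem jet_eq (S : ℂ⟦X⟧) (s0 s1 s2 : ℤ) (h0 : coeff 0 S = s0) (h1 : coeff 1 S = s1)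
    (h2 : coeff 2 S = s2) :
    jet S = ((s0 : ℤ) : ℂ⟦X⟧ ⧸ I3) + ((s1 : ℤ) : ℂ⟦X⟧ ⧸ I3) * xi +
      ((s2 : ℤ) : ℂ⟦X⟧ ⧸ I3) * xi ^ 2 := by
  have e : ((s0 : ℤ) : ℂ⟦X⟧ ⧸ I3) + ((s1 : ℤ) : ℂ⟦X⟧ ⧸ I3) * xi +
      ((s2 : ℤ) : ℂ⟦X⟧ ⧸ I3) * xi ^ 2 =
      jet (PowerSeries.C (s0 : ℂ) + PowerSeries.C (s1 : ℂ) * PowerSeries.X +
        PowerSeries.C (s2 : ℂ) * PowerSeries.X ^ 2) := by
    have hc : ∀ c : ℤ, jet (PowerSeries.C (c : ℂ)) = ((c : ℤ) : ℂ⟦X⟧ ⧸ I3) := by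
      intro c
      have : (PowerSeries.C (c : ℂ) : ℂ⟦X⟧) = ((c : ℤ) : ℂ⟦X⟧) := map_intCast _ c
      rw [this, map_intCast]
    rw [map_add, map_add, map_mul, map_mul, map_pow, hc, hc, hc]
    rfl
  rw [e, ← sub_eq_zero, ← map_sub, jet_eq_zero_iff]
  intro n hn
  rw [map_sub, coeff_quadratic]
  interval_cases n
  · rw [h0]; norm_num
  · rw [h1]; norm_num
  · rw [h2]; norm_num


/-! ### `E₄`, `E₆` and the level-`p` Eisenstein series as functions, their `q`-expansions -/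

section Basic

open EisensteinSeries Fermat.Agent.S16.EisP Fermat.Agent.S16.LIntForms
open Fermat.Agent.S16.RamanujanMod3

/-- `E₄` as a function. -/
def E4f : ℍ → ℂ := ⇑E₄

/-- `E₆` as a function. -/
def E6f : ℍ → ℂ := ⇑E₆

/-- `B_p = p E₂(pz) − E₂(z)` as a function. -/
def Bf (p : ℕ) [NeZero p] : ℍ → ℂ := ⇑(eisP p)

variable (p : ℕ) [NeZero p]

theorem isMF_B : IsMF (Gamma0 p) 2 (Bf p) := isMF_coe (eisP p)
theorem isMF_E4 : IsMF (Gamma0 p) 4 E4f := isMF_E₄.mono le_top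
theorem isMF_E6 : IsMF (Gamma0 p) 6 E6f := isMF_E₆.mono le_top
theorem isMF_E4v : IsMF (Gamma0 p) 4 (vp p E4f) := isMF_vp p isMF_E₄
theorem isMF_E6v : IsMF (Gamma0 p) 6 (vp p E6f) := isMF_vp p isMF_E₆

theorem isHol_B : IsHol (Bf p) := isHol_of_isMF (isMF_B p)
theorem isHol_E4 : IsHol E4f := IsHol.ofModularForm E₄
theorem isHol_E6 : IsHol E6f := IsHol.ofModularForm E₆
theorem isHol_E4v : IsHol (vp p E4f) := isHol_of_isMF (isMF_E4v p)
theorem isHol_E6v : IsHol (vp p E6f) := isHol_of_isMF (isMF_E6v p)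

/-- the `q`-expansion of `B_p` -/
def qB : ℂ⟦X⟧ := qExpansion 1 (Bf p)

/-- the `q`-expansion of `E₄` -/
def qE4 : ℂ⟦X⟧ := qExpansion 1 E4f

/-- the `q`-expansion of `E₆` -/
def qE6 : ℂ⟦X⟧ := qExpansion 1 E6f

theorem qExpansion_E4v : qExpansion 1 (vp p E4f) = expand p (NeZero.ne p) qE4 :=
  qExpansion_vp p isHol_E4

theorem qExpansion_E6v : qExpansion 1 (vp p E6f) = expand p (NeZero.ne p) qE6 :=
  qExpansion_vp p isHol_E6

theorem coeff_natCast_mul (c : ℕ) (S : ℤ⟦X⟧) (n : ℕ) :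
    coeff n ((c : ℤ⟦X⟧) * S) = c * coeff n S := by
  have : ((c : ℤ⟦X⟧)) = PowerSeries.C (c : ℤ) := (map_natCast (PowerSeries.C (R := ℤ)) c).symm
  rw [this, coeff_C_mul]

/-- the integral `q`-expansion of `E₄` -/
def e4Z : ℤ⟦X⟧ := 1 + 240 * sig 3

/-- the integral `q`-expansion of `E₆` -/
def e6Z : ℤ⟦X⟧ := 1 - 504 * sig 5

theorem coeff_e4Z (n : ℕ) :
    coeff n e4Z = (if n = 0 then 1 else 0) + 240 * ∑ d ∈ n.divisors, (d : ℤ) ^ 3 := by
  have h : (240 : ℤ⟦X⟧) = ((240 : ℕ) : ℤ⟦X⟧) := by norm_cast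
  rw [e4Z, map_add, h, coeff_natCast_mul, coeff_sig, coeff_one]
  norm_num

theorem coeff_e6Z (n : ℕ) :
    coeff n e6Z = (if n = 0 then 1 else 0) - 504 * ∑ d ∈ n.divisors, (d : ℤ) ^ 5 := by
  have h : (504 : ℤ⟦X⟧) = ((504 : ℕ) : ℤ⟦X⟧) := by norm_cast
  rw [e6Z, map_sub, h, coeff_natCast_mul, coeff_sig, coeff_one]
  norm_num

theorem qE4_eq : qE4 = PowerSeries.map (Int.castRingHom ℂ) e4Z := qExpansion_E₄_eq

theorem qE6_eq : qE6 = PowerSeries.map (Int.castRingHom ℂ) e6Z := qExpansion_E₆_eq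

theorem coeff_qE4 (n : ℕ) : coeff n qE4 = ((coeff n e4Z : ℤ) : ℂ) := by
  rw [qE4_eq, coeff_map]
  rfl

theorem coeff_qE6 (n : ℕ) : coeff n qE6 = ((coeff n e6Z : ℤ) : ℂ) := by
  rw [qE6_eq, coeff_map]
  rfl

theorem jet_qE4 : jet qE4 = 1 + 240 * xi + 2160 * xi ^ 2 := by
  rw [jet_eq qE4 1 240 2160 ?_ ?_ ?_]
  · push_cast; ring
  · rw [coeff_qE4, coeff_e4Z]; congr 1
  · rw [coeff_qE4, coeff_e4Z]; congr 1
  · rw [coeff_qE4, coeff_e4Z]; congr 1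

theorem jet_qE6 : jet qE6 = 1 - 504 * xi - 16632 * xi ^ 2 := by
  rw [jet_eq qE6 1 (-504) (-16632) ?_ ?_ ?_]
  · push_cast; ring
  · rw [coeff_qE6, coeff_e6Z]; congr 1
  · rw [coeff_qE6, coeff_e6Z]; congr 1
  · rw [coeff_qE6, coeff_e6Z]; congr 1

/-- the jet of `S(X^p)` for `p ≥ 3` -/
theorem jet_expand_of_three_le {p : ℕ} (hp : p ≠ 0) (h3 : 3 ≤ p) (S : ℂ⟦X⟧) (s0 : ℤ)
    (h0 : coeff 0 S = s0) : jet (expand p hp S) = ((s0 : ℤ) : ℂ⟦X⟧ ⧸ I3) := by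
  rw [jet_eq (expand p hp S) s0 0 0 ?_ ?_ ?_]
  · push_cast; ring
  · have := coeff_expand_mul p hp S 0
    rw [mul_zero] at this
    rw [this, h0]
  · rw [coeff_expand_of_not_dvd p hp S (fun h => by have := Nat.le_of_dvd one_pos h; omega)]
    simp
  · rw [coeff_expand_of_not_dvd p hp S (fun h => by have := Nat.le_of_dvd two_pos h; omega)]
    simp

/-- the jet of `S(X²)` -/
theorem jet_expand_two (S : ℂ⟦X⟧) (s0 s1 : ℤ) (h0 : coeff 0 S = s0) (h1 : coeff 1 S = s1) :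
    jet (expand 2 two_ne_zero S) = ((s0 : ℤ) : ℂ⟦X⟧ ⧸ I3) + ((s1 : ℤ) : ℂ⟦X⟧ ⧸ I3) * xi ^ 2 := by
  rw [jet_eq (expand 2 two_ne_zero S) s0 0 s1 ?_ ?_ ?_]
  · push_cast; ring
  · have := coeff_expand_mul 2 two_ne_zero S 0
    rw [mul_zero] at this
    rw [this, h0]
  · rw [coeff_expand_of_not_dvd 2 two_ne_zero S (by decide)]
    simp
  · have := coeff_expand_mul 2 two_ne_zero S 1
    rw [mul_one] at this
    rw [this, h1]

/-- the jet of `B_p` -/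
theorem jet_qB (s1 s2 : ℕ) (h1 : sigmaPrime p 1 = s1) (h2 : sigmaPrime p 2 = s2) :
    jet (qB p) = ((p : ℤ) - 1 : ℤ) + ((24 * s1 : ℕ) : ℤ) * xi + ((24 * s2 : ℕ) : ℤ) * xi ^ 2 := by
  rw [jet_eq (qB p) ((p : ℤ) - 1) ((24 * s1 : ℕ) : ℤ) ((24 * s2 : ℕ) : ℤ) ?_ ?_ ?_]
  · rw [qB, Bf, qExpansion_eisP_coeff', if_pos rfl]; push_cast; ring
  · rw [qB, Bf, qExpansion_eisP_coeff', if_neg one_ne_zero, h1]; push_cast; ring
  · rw [qB, Bf, qExpansion_eisP_coeff', if_neg two_ne_zero, h2]; push_cast; ring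

end Basic

/-- **Vanishing from the `2`-jet.** -/
theorem eq_zero_of_jet {p : ℕ} [hp : Fact p.Prime] {k : ℤ} {w : ℕ} (hk : k = (w : ℤ))
    (hw : Even w) (hb : w * (p + 1) / 12 ≤ 2) {f : ℍ → ℂ} (hf : IsMF (Gamma0 p) k f)
    (h : jet (qExpansion 1 f) = 0) : f = 0 := by
  refine sturm_zero hk hw hf (fun n hn => ?_)
  exact (jet_eq_zero_iff _).mp h n (by omega)

end Fermat.Agent.S36.Haupt.Forms

end
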