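import Mathlib
import Fermat.Agent.S36.Haupt.Forms

/-!
# S36 / [AUX-H], step 2 (helper10): the ring of modular forms of level `2`

With `B = 2 E₂(2z) − E₂(z) = 1 + 24 ∑ σ'(n) qⁿ` (`S16.EisP.eisP 2`, weight `2` on `Γ₀(2)`):

* `E₆ = 4 B³ − 3 B E₄`,
* `4 E₄(2z) = 5 B² − E₄`,
* `8 E₆(2z) = B (11 B² − 3 E₄)`,

as identities of `q`-expansions in `ℂ⟦X⟧` (`qE6_eq2`, `qE4v_eq2`, `qE6v_eq2`).  Each is a form of
weight `≤ 6` on `Γ₀(2)`, so by the Sturm bound (`Forms.eq_zero_of_jet`) only the coefficients of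
`1, q, q²` have to be compared.
-/

set_option autoImplicit false

noncomputable section

namespace Fermat.Agent.S36.Haupt.Forms2

open UpperHalfPlane ModularForm CongruenceSubgroup PowerSeries
open scoped MatrixGroups Manifold ModularForm
open Fermat.Agent.M2 Fermat.Agent.M2F Fermat.Agent.S24.QExp Fermat.Agent.S36.Haupt.Forms
open Fermat.Agent.S16.EisP

instance : Fact (Nat.Prime 2) := ⟨Nat.prime_two⟩

local notation "B" => Bf 2

theorem jet_qB2 : jet (qB 2) = 1 + 24 * xi + 24 * xi ^ 2 := by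
  rw [jet_qB 2 1 1 (by decide) (by decide)]
  push_cast
  ring

/-! ### `E₆ = 4 B³ − 3 B E₄` -/

/-- `E₆ − 4 B³ + 3 B E₄`. -/
def F1 : ℍ → ℂ := E6f + cst (-4) * B ^ 3 + cst 3 * (B * E4f)

theorem isMF_F1 : IsMF (Gamma0 2) 6 F1 := by
  have h1 : IsMF (Gamma0 2) 6 (cst (-4) * B ^ 3) :=
    ((isMF_cst (-4)).mul ((isMF_B 2).pow 3)).of_weight_eq (by norm_num)
  have h2 : IsMF (Gamma0 2) 6 (cst 3 * (B * E4f)) :=
    ((isMF_cst 3).mul ((isMF_B 2).mul (isMF_E4 2))).of_weight_eq (by norm_num)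
  exact ((isMF_E6 2).add h1).add h2

theorem qExpansion_F1 :
    qExpansion 1 F1 = qE6 + C (-4) * qB 2 ^ 3 + C 3 * (qB 2 * qE4) := by
  have hB := isHol_B 2
  rw [F1, (isHol_E6.add ((isHol_cst (-4)).mul (hB.pow 3))).qExpansion_add
      ((isHol_cst 3).mul (hB.mul isHol_E4)),
    isHol_E6.qExpansion_add ((isHol_cst (-4)).mul (hB.pow 3)),
    (isHol_cst (-4)).qExpansion_mul (hB.pow 3), (isHol_cst 3).qExpansion_mul (hB.mul isHol_E4),
    hB.qExpansion_pow, hB.qExpansion_mul isHol_E4, qExpansion_cst, qExpansion_cst]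
  rfl

theorem F1_eq_zero : F1 = 0 := by
  refine eq_zero_of_jet (p := 2) (k := 6) (w := 6) (by norm_num) (by decide) (by norm_num)
    isMF_F1 ?_
  have hC : ∀ c : ℤ, jet (C (c : ℂ)) = ((c : ℤ) : ℂ⟦X⟧ ⧸ I3) := by
    intro c
    have : (C (c : ℂ) : ℂ⟦X⟧) = ((c : ℤ) : ℂ⟦X⟧) := map_intCast _ c
    rw [this, map_intCast]
  have h4 : jet (C (-4 : ℂ)) = -4 := by
    have := hC (-4); push_cast at this; exact this
  have h3 : jet (C (3 : ℂ)) = 3 := by
    have := hC 3; push_cast at this; exact this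
  rw [qExpansion_F1, map_add, map_add, map_mul, map_mul, map_mul, map_pow, jet_qE6, jet_qE4,
    jet_qB2, h4, h3]
  linear_combination (103680 - 17280 * xi - 165888 * xi ^ 2 - 55296 * xi ^ 3) * xi_cube

theorem jet_C_int (c : ℤ) : jet (C (c : ℂ)) = ((c : ℤ) : ℂ⟦X⟧ ⧸ I3) := by
  have : (C (c : ℂ) : ℂ⟦X⟧) = ((c : ℤ) : ℂ⟦X⟧) := map_intCast _ c
  rw [this, map_intCast]

/-- **`E₆ = 4 B³ − 3 B E₄`** (`q`-expansions). -/
theorem qE6_eq2 : qE6 = C 4 * qB 2 ^ 3 - C 3 * (qB 2 * qE4) := by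
  have h := qExpansion_F1
  rw [F1_eq_zero, qExpansion_zero] at h
  have h4 : (C (-4 : ℂ) : ℂ⟦X⟧) = -C 4 := by rw [← map_neg]
  rw [h4] at h
  linear_combination -h

/-! ### `4 E₄(2z) = 5 B² − E₄` -/

/-- `4 E₄(2z) − 5 B² + E₄`. -/
def F2 : ℍ → ℂ := cst 4 * vp 2 E4f + cst (-5) * B ^ 2 + E4f

theorem isMF_F2 : IsMF (Gamma0 2) 4 F2 := by
  have h1 : IsMF (Gamma0 2) 4 (cst 4 * vp 2 E4f) :=
    ((isMF_cst 4).mul (isMF_E4v 2)).of_weight_eq (by norm_num)
  have h2 : IsMF (Gamma0 2) 4 (cst (-5) * B ^ 2) :=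
    ((isMF_cst (-5)).mul ((isMF_B 2).pow 2)).of_weight_eq (by norm_num)
  exact (h1.add h2).add (isMF_E4 2)

theorem qExpansion_F2 :
    qExpansion 1 F2 = C 4 * expand 2 two_ne_zero qE4 + C (-5) * qB 2 ^ 2 + qE4 := by
  have hB := isHol_B 2
  have hv := isHol_E4v 2
  rw [F2, (((isHol_cst 4).mul hv).add ((isHol_cst (-5)).mul (hB.pow 2))).qExpansion_add isHol_E4,
    ((isHol_cst 4).mul hv).qExpansion_add ((isHol_cst (-5)).mul (hB.pow 2)),
    (isHol_cst 4).qExpansion_mul hv, (isHol_cst (-5)).qExpansion_mul (hB.pow 2),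
    hB.qExpansion_pow, qExpansion_cst, qExpansion_cst, qExpansion_E4v]
  rfl

theorem jet_qE4v2 : jet (expand 2 two_ne_zero qE4) = 1 + 240 * xi ^ 2 := by
  rw [jet_expand_two qE4 1 240 ?_ ?_]
  · push_cast; ring
  · rw [coeff_qE4, coeff_e4Z]; congr 1
  · rw [coeff_qE4, coeff_e4Z]; congr 1

theorem jet_qE6v2 : jet (expand 2 two_ne_zero qE6) = 1 - 504 * xi ^ 2 := by
  rw [jet_expand_two qE6 1 (-504) ?_ ?_]
  · push_cast; ring
  · rw [coeff_qE6, coeff_e6Z]; congr 1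
  · rw [coeff_qE6, coeff_e6Z]; congr 1

theorem F2_eq_zero : F2 = 0 := by
  refine eq_zero_of_jet (p := 2) (k := 4) (w := 4) (by norm_num) (by decide) (by norm_num)
    isMF_F2 ?_
  have h4 : jet (C (4 : ℂ)) = 4 := by
    have := jet_C_int 4; push_cast at this; exact this
  have h5 : jet (C (-5 : ℂ)) = -5 := by
    have := jet_C_int (-5); push_cast at this; exact this
  rw [qExpansion_F2, map_add, map_add, map_mul, map_mul, map_pow, jet_qE4v2, jet_qE4,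
    jet_qB2, h4, h5]
  linear_combination (-5760 - 2880 * xi) * xi_cube

/-- **`4 E₄(2z) = 5 B² − E₄`** (`q`-expansions). -/
theorem qE4v_eq2 : C 4 * expand 2 two_ne_zero qE4 = C 5 * qB 2 ^ 2 - qE4 := by
  have h := qExpansion_F2
  rw [F2_eq_zero, qExpansion_zero] at h
  have h5 : (C (-5 : ℂ) : ℂ⟦X⟧) = -C 5 := by rw [← map_neg]
  rw [h5] at h
  linear_combination -h

/-! ### `8 E₆(2z) = B (11 B² − 3 E₄)` -/

/-- `8 E₆(2z) − 11 B³ + 3 B E₄`. -/
def F3 : ℍ → ℂ := cst 8 * vp 2 E6f + cst (-11) * B ^ 3 + cst 3 * (B * E4f)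

theorem isMF_F3 : IsMF (Gamma0 2) 6 F3 := by
  have h1 : IsMF (Gamma0 2) 6 (cst 8 * vp 2 E6f) :=
    ((isMF_cst 8).mul (isMF_E6v 2)).of_weight_eq (by norm_num)
  have h2 : IsMF (Gamma0 2) 6 (cst (-11) * B ^ 3) :=
    ((isMF_cst (-11)).mul ((isMF_B 2).pow 3)).of_weight_eq (by norm_num)
  have h3 : IsMF (Gamma0 2) 6 (cst 3 * (B * E4f)) :=
    ((isMF_cst 3).mul ((isMF_B 2).mul (isMF_E4 2))).of_weight_eq (by norm_num)
  exact (h1.add h2).add h3

theorem qExpansion_F3 :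
    qExpansion 1 F3 =
      C 8 * expand 2 two_ne_zero qE6 + C (-11) * qB 2 ^ 3 + C 3 * (qB 2 * qE4) := by
  have hB := isHol_B 2
  have hv := isHol_E6v 2
  rw [F3, (((isHol_cst 8).mul hv).add ((isHol_cst (-11)).mul (hB.pow 3))).qExpansion_add
      ((isHol_cst 3).mul (hB.mul isHol_E4)),
    ((isHol_cst 8).mul hv).qExpansion_add ((isHol_cst (-11)).mul (hB.pow 3)),
    (isHol_cst 8).qExpansion_mul hv, (isHol_cst (-11)).qExpansion_mul (hB.pow 3),
    (isHol_cst 3).qExpansion_mul (hB.mul isHol_E4), hB.qExpansion_mul isHol_E4,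
    hB.qExpansion_pow, qExpansion_cst, qExpansion_cst, qExpansion_cst, qExpansion_E6v]
  rfl

theorem F3_eq_zero : F3 = 0 := by
  refine eq_zero_of_jet (p := 2) (k := 6) (w := 6) (by norm_num) (by decide) (by norm_num)
    isMF_F3 ?_
  have h8 : jet (C (8 : ℂ)) = 8 := by
    have := jet_C_int 8; push_cast at this; exact this
  have h11 : jet (C (-11 : ℂ)) = -11 := by
    have := jet_C_int (-11); push_cast at this; exact this
  have h3 : jet (C (3 : ℂ)) = 3 := by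
    have := jet_C_int 3; push_cast at this; exact this
  rw [qExpansion_F3, map_add, map_add, map_mul, map_mul, map_mul, map_mul, map_pow, jet_qE6v2,
    jet_qE4, jet_qB2, h8, h11, h3]
  linear_combination (-17280 - 319680 * xi - 456192 * xi ^ 2 - 152064 * xi ^ 3) * xi_cube

/-- **`8 E₆(2z) = B (11 B² − 3 E₄)`** (`q`-expansions). -/
theorem qE6v_eq2 :
    C 8 * expand 2 two_ne_zero qE6 = qB 2 * (C 11 * qB 2 ^ 2 - C 3 * qE4) := by
  have h := qExpansion_F3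
  rw [F3_eq_zero, qExpansion_zero] at h
  have h11 : (C (-11 : ℂ) : ℂ⟦X⟧) = -C 11 := by rw [← map_neg]
  rw [h11] at h
  linear_combination -h

end Fermat.Agent.S36.Haupt.Forms2

end
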