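import Mathlib
import Fermat.Agent.S36.Haupt.Forms2
import Fermat.Agent.S16.Bridge.AtkinLehnerFF
import Fermat.Agent.S16.Bridge.ScaleForm
import Fermat.Agent.S16.BetaLemmaD
import Fermat.Agent.N4.Kronecker

/-!
# S36 / [AUX-H], step 4 (helper10): the Hauptmodul `h` of `Γ₀(2)` inside `FF ℚ 2`

With `B = eisP 2`, `x := E₄ / B² ∈ FF ℚ 2 = ℚ(j(q), j(q²))` (`S16.Bridge.ratioFF`) and
`h := 64 (4 − x) / (x − 1)` (`= Δ(z)/Δ(2z) = q⁻¹ − 24 + …`):

* `jF_mul_hF_sq  : j · h² = (h + 256)³`,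
* `jdF_mul_hF    : j(q²) · h = (h + 16)³`,
* `hF_pole       : h · d = n` for power series `d, n ∈ ℚ⟦X⟧` with `d(0) = 0`, `n(0) ≠ 0`
  (so `h` is not a constant).
-/

set_option autoImplicit false

noncomputable section

namespace Fermat.Agent.S36.Haupt.Two

open UpperHalfPlane ModularForm CongruenceSubgroup PowerSeries ModularCurve
open scoped MatrixGroups Manifold ModularForm
open Fermat.Agent.M2 Fermat.Agent.M2F Fermat.Agent.S24.QExp Fermat.Agent.S36.Haupt.Forms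
open Fermat.Agent.S36.Haupt.Forms2
open Fermat.Agent.S16.EisP Fermat.Agent.S16.Bridge Fermat.Agent.N4.Setting
open Fermat.Agent.S16.BetaLemma

/-! ### Rational `q`-expansions -/

/-- `E₄` over `ℚ`. -/
def e4Q : ℚ⟦X⟧ := PowerSeries.map (Int.castRingHom ℚ) e4Z

/-- `E₆` over `ℚ`. -/
def e6Q : ℚ⟦X⟧ := PowerSeries.map (Int.castRingHom ℚ) e6Z

/-- `B = 1 + 24 ∑ σ'(n) qⁿ` over `ℚ`. -/
def bQ : ℚ⟦X⟧ := PowerSeries.mk fun n => if n = 0 then 1 else 24 * (sigmaPrime 2 n : ℚ)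

local notation "toC" => PowerSeries.map (algebraMap ℚ ℂ)

theorem toC_injective : Function.Injective (toC) :=
  PowerSeries.map_injective _ (algebraMap ℚ ℂ).injective

theorem toC_e4Q : toC e4Q = qE4 := by
  rw [e4Q, qE4_eq]
  ext n
  simp [coeff_map]

theorem toC_e6Q : toC e6Q = qE6 := by
  rw [e6Q, qE6_eq]
  ext n
  simp [coeff_map]

theorem toC_bQ : toC bQ = qB 2 := by
  ext n
  rw [qB, Bf, qExpansion_eisP_coeff', coeff_map, bQ, coeff_mk]
  split_ifs <;> simp <;> norm_num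

theorem e6Q_eq : e6Q = C 4 * bQ ^ 3 - C 3 * (bQ * e4Q) := by
  apply toC_injective
  rw [map_sub, map_mul, map_mul, map_pow, map_mul, toC_e6Q, toC_bQ, toC_e4Q, map_C, map_C,
    qE6_eq2]
  simp

theorem e4Qv_eq : C 4 * expand 2 two_ne_zero e4Q = C 5 * bQ ^ 2 - e4Q := by
  apply toC_injective
  rw [map_sub, map_mul, map_mul, map_pow, PowerSeries.map_expand, toC_bQ, toC_e4Q, map_C, map_C]
  have := qE4v_eq2
  simpa using this

theorem e6Qv_eq : C 8 * expand 2 two_ne_zero e6Q = bQ * (C 11 * bQ ^ 2 - C 3 * e4Q) := by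
  apply toC_injective
  rw [map_mul, map_mul, map_sub, map_mul, map_mul, map_pow, PowerSeries.map_expand, toC_bQ,
    toC_e4Q, toC_e6Q, map_C, map_C, map_C]
  have := qE6v_eq2
  simpa using this


/-! ### Laurent series over `ℚ` -/

local notation "ofQ" => HahnSeries.ofPowerSeries ℤ ℚ

theorem ofQ_injective : Function.Injective (ofQ) := HahnSeries.ofPowerSeries_injective

/-- `E₄` in `ℚ((q))`. -/
def E4L : LaurentSeries ℚ := ofQ e4Q
/-- `E₆` in `ℚ((q))`. -/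
def E6L : LaurentSeries ℚ := ofQ e6Q
/-- `B` in `ℚ((q))`. -/
def BL : LaurentSeries ℚ := ofQ bQ
/-- `j(q)`. -/
def jq : LaurentSeries ℚ := jqModC ℚ
/-- `j(q²)`. -/
def jq2 : LaurentSeries ℚ := qExpand ℚ 2 (jqModC ℚ)

theorem eisenstein4_eq : eisenstein4 = e4Z := by
  ext n
  rw [coeff_e4Z, eisenstein4, coeff_mk]
  split_ifs with h
  · subst h; simp
  · simp

theorem eis6_eq : eis6 = e6Z := by
  ext n
  rw [coeff_e6Z, eis6, coeff_mk]
  split_ifs with h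
  · subst h; simp
  · simp

theorem E4K_eq : E4K ℚ = E4L := by rw [E4K, eisenstein4_eq]; rfl

theorem E6K_eq : E6K ℚ = E6L := by rw [E6K, eis6_eq]; rfl

/-- `j · (E₄³ − E₆²) = 1728 E₄³`. -/
theorem jq_rel : jq * (E4L ^ 3 - E6L ^ 2) = 1728 * E4L ^ 3 := by
  have h1 := jqModC_mul_DeltaK ℚ
  have h2 := E4K_cube_sub (K := ℚ) h1728
  rw [E4K_eq] at h1 h2
  rw [E6K_eq] at h2
  rw [h2, jq, ← h1]
  ring

theorem qExpand_E4L : qExpand ℚ 2 E4L = ofQ (expand 2 two_ne_zero e4Q) :=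
  Fermat.Agent.N4.Kronecker.qExpand_ofPowerSeries 2 e4Q

theorem qExpand_E6L : qExpand ℚ 2 E6L = ofQ (expand 2 two_ne_zero e6Q) :=
  Fermat.Agent.N4.Kronecker.qExpand_ofPowerSeries 2 e6Q

/-- `j(q²) · (E₄(q²)³ − E₆(q²)²) = 1728 E₄(q²)³`. -/
theorem jq2_rel : jq2 * ((qExpand ℚ 2 E4L) ^ 3 - (qExpand ℚ 2 E6L) ^ 2) =
    1728 * (qExpand ℚ 2 E4L) ^ 3 := by
  have h := congrArg (qExpand ℚ 2) jq_rel
  rw [map_mul, map_sub, map_pow, map_pow, map_mul, map_pow, map_ofNat] at h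
  exact h

theorem E6L_eq : E6L = 4 * BL ^ 3 - 3 * (BL * E4L) := by
  have h := congrArg (ofQ) e6Q_eq
  rw [map_sub, map_mul, map_mul, map_mul, map_pow] at h
  simp only [map_ofNat] at h
  exact h

theorem E4Lv_eq : 4 * qExpand ℚ 2 E4L = 5 * BL ^ 2 - E4L := by
  have h := congrArg (ofQ) e4Qv_eq
  rw [map_sub, map_mul, map_mul, map_pow] at h
  simp only [map_ofNat] at h
  rw [qExpand_E4L]
  exact h

theorem E6Lv_eq : 8 * qExpand ℚ 2 E6L = BL * (11 * BL ^ 2 - 3 * E4L) := by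
  have h := congrArg (ofQ) e6Qv_eq
  rw [map_mul, map_mul, map_sub, map_mul, map_mul, map_pow] at h
  simp only [map_ofNat] at h
  rw [qExpand_E6L]
  exact h


/-! ### Non-vanishing -/

theorem constantCoeff_e4Q : constantCoeff e4Q = 1 := by
  rw [← coeff_zero_eq_constantCoeff_apply, e4Q, coeff_map, coeff_e4Z]
  simp

theorem constantCoeff_bQ : constantCoeff bQ = 1 := by
  rw [← coeff_zero_eq_constantCoeff_apply, bQ, coeff_mk]
  simp

theorem coeff_one_e4Q : coeff 1 e4Q = 240 := by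
  rw [e4Q, coeff_map, coeff_e4Z]
  simp

theorem coeff_one_bQ : coeff 1 bQ = 24 := by
  rw [bQ, coeff_mk]
  have : sigmaPrime 2 1 = 1 := by decide
  simp [this]

theorem bQ_ne_zero : bQ ≠ 0 := by
  intro h
  have := constantCoeff_bQ
  rw [h, map_zero] at this
  exact zero_ne_one this

/-- the denominator `E₄ − B²` of `h` -/
def dQ : ℚ⟦X⟧ := e4Q - bQ ^ 2

/-- the numerator `64 (4 B² − E₄)` of `h` -/
def nQ : ℚ⟦X⟧ := 64 * (4 * bQ ^ 2 - e4Q)

theorem constantCoeff_dQ : constantCoeff dQ = 0 := by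
  rw [dQ, map_sub, map_pow, constantCoeff_e4Q, constantCoeff_bQ]
  norm_num

theorem constantCoeff_nQ : constantCoeff nQ = 192 := by
  rw [nQ, map_mul, map_sub, map_mul, map_pow, constantCoeff_e4Q, constantCoeff_bQ, map_ofNat,
    map_ofNat]
  norm_num

theorem coeff_one_dQ : coeff 1 dQ = 192 := by
  rw [dQ, map_sub, coeff_one_e4Q, pow_two, coeff_one_mul, coeff_one_bQ, constantCoeff_bQ]
  norm_num

theorem dQ_ne_zero : dQ ≠ 0 := by
  intro h
  have := coeff_one_dQ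
  rw [h, map_zero] at this
  norm_num at this

theorem nQ_ne_zero : nQ ≠ 0 := by
  intro h
  have := constantCoeff_nQ
  rw [h, map_zero] at this
  norm_num at this

theorem BL_ne_zero : BL ≠ 0 := fun h =>
  bQ_ne_zero (ofQ_injective (by rw [← BL, h, map_zero]))

/-! ### The function `x = E₄ / B²` and the two `j`-relations -/

/-- `x = E₄ / B²` in `ℚ((q))`. -/
def xL : LaurentSeries ℚ := E4L / BL ^ 2

theorem E4L_eq : E4L = xL * BL ^ 2 := by
  rw [xL, div_mul_cancel₀ _ (pow_ne_zero 2 BL_ne_zero)]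

theorem ofQ_dQ : ofQ dQ = (xL - 1) * BL ^ 2 := by
  rw [dQ, map_sub, map_pow, sub_mul, one_mul, ← E4L_eq]
  rfl

theorem ofQ_nQ : ofQ nQ = 64 * (4 - xL) * BL ^ 2 := by
  rw [nQ, map_mul, map_sub, map_mul, map_pow, map_ofNat, map_ofNat, mul_assoc, sub_mul,
    ← E4L_eq]
  rfl

theorem xL_sub_one_ne_zero : xL - 1 ≠ 0 := by
  intro h
  apply dQ_ne_zero
  apply ofQ_injective
  rw [ofQ_dQ, h, zero_mul, map_zero]

theorem xL_sub_four_ne_zero : xL - 4 ≠ 0 := by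
  intro h
  apply nQ_ne_zero
  apply ofQ_injective
  have h' : 4 - xL = 0 := by rw [← neg_sub, h, neg_zero]
  rw [ofQ_nQ, h', mul_zero, zero_mul, map_zero]

/-- `j (x − 1)(x − 4)² = 1728 x³`. -/
theorem jq_xL : jq * (xL - 1) * (xL - 4) ^ 2 = 1728 * xL ^ 3 := by
  have h := jq_rel
  rw [E6L_eq, E4L_eq] at h
  apply mul_left_cancel₀ (pow_ne_zero 6 BL_ne_zero)
  linear_combination h

/-- `j(q²) (x − 1)² (4 − x) = 1728 (5 − x)³`. -/
theorem jq2_xL : jq2 * (xL - 1) ^ 2 * (4 - xL) = 1728 * (5 - xL) ^ 3 := by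
  have h := jq2_rel
  have h4 : 4 * qExpand ℚ 2 E4L = BL ^ 2 * (5 - xL) := by
    rw [E4Lv_eq, E4L_eq]
    ring
  have h6 : 8 * qExpand ℚ 2 E6L = BL ^ 3 * (11 - 3 * xL) := by
    rw [E6Lv_eq, E4L_eq]
    ring
  have h' : jq2 * ((4 * qExpand ℚ 2 E4L) ^ 3 - (8 * qExpand ℚ 2 E6L) ^ 2) =
      1728 * (4 * qExpand ℚ 2 E4L) ^ 3 := by
    linear_combination 64 * h
  rw [h4, h6] at h'
  apply mul_left_cancel₀ (pow_ne_zero 6 BL_ne_zero)
  linear_combination h'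

/-- `h = 64 (4 − x)/(x − 1)` in `ℚ((q))`. -/
def hL : LaurentSeries ℚ := 64 * (4 - xL) / (xL - 1)

theorem hL_mul : hL * (xL - 1) = 64 * (4 - xL) := by
  rw [hL, div_mul_cancel₀ _ xL_sub_one_ne_zero]

/-- **`j h² = (h + 256)³`** in `ℚ((q))`. -/
theorem jq_hL : jq * hL ^ 2 = (hL + 256) ^ 3 := by
  have hh := hL_mul
  have hA := jq_xL
  apply mul_left_cancel₀ (pow_ne_zero 3 xL_sub_one_ne_zero)
  linear_combination (jq * (xL - 1) * (hL * (xL - 1) + 64 * (4 - xL)) -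
    ((hL * (xL - 1) + 256 * (xL - 1)) ^ 2 + (hL * (xL - 1) + 256 * (xL - 1)) * (192 * xL) +
      (192 * xL) ^ 2)) * hh + 4096 * hA

/-- **`j(q²) h = (h + 16)³`** in `ℚ((q))`. -/
theorem jq2_hL : jq2 * hL = (hL + 16) ^ 3 := by
  have hh := hL_mul
  have hB := jq2_xL
  apply mul_left_cancel₀ (pow_ne_zero 3 xL_sub_one_ne_zero)
  linear_combination (jq2 * (xL - 1) ^ 2 -
    ((hL * (xL - 1) + 16 * (xL - 1)) ^ 2 + (hL * (xL - 1) + 16 * (xL - 1)) * (48 * (5 - xL)) +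
      (48 * (5 - xL)) ^ 2)) * hh + 64 * hB

/-- `h · (E₄ − B²) = 64 (4 B² − E₄)`. -/
theorem hL_mul_dQ : hL * ofQ dQ = ofQ nQ := by
  rw [ofQ_dQ, ofQ_nQ, ← mul_assoc, hL_mul]


/-! ### `x` and `h` as elements of `FF ℚ 2` -/

theorem isFL_E4 : IsFormLike (Gamma0 2) ((4 : ℕ) : ℤ) E4f :=
  (isFormLike_iff_isMF.mpr (isMF_E4 2)).congr_weight (by norm_num)

theorem isFL_B2 : IsFormLike (Gamma0 2) ((4 : ℕ) : ℤ) (Bf 2 ^ 2) :=
  ((isFormLike_iff_isMF.mpr (isMF_B 2)).pow 2).congr_weight (by norm_num)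

theorem hasRatQ_E4 : HasRatQ E4f e4Q := toC_e4Q.symm

theorem hasRatQ_B2 : HasRatQ (Bf 2 ^ 2) (bQ ^ 2) := by
  rw [HasRatQ, (isHol_B 2).qExpansion_pow, map_pow, toC_bQ]
  rfl

theorem B2_ne_zero : Bf 2 ^ 2 ≠ 0 := by
  intro h
  have h1 := hasRatQ_B2
  rw [HasRatQ, h, UpperHalfPlane.qExpansion_zero] at h1
  have h2 : bQ ^ 2 = 0 := toC_injective (by rw [← h1, map_zero])
  exact bQ_ne_zero ((pow_eq_zero_iff two_ne_zero).mp h2)

/-- `x = E₄ / B²` as an element of `FF ℚ 2 = ℚ(j(q), j(q²))`. -/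
def xF : FF ℚ 2 := ratioFF isFL_E4 isFL_B2 B2_ne_zero hasRatQ_E4 hasRatQ_B2

theorem coe_xF : ((xF : FF ℚ 2) : LaurentSeries ℚ) = xL := by
  rw [xF, coe_ratioFF, map_pow]
  rfl

/-- **The Hauptmodul `h = 64 (4 − x)/(x − 1)` of `Γ₀(2)`** as an element of `FF ℚ 2`. -/
def hF : FF ℚ 2 := 64 * (4 - xF) / (xF - 1)

/-- the inclusion `FF ℚ 2 → ℚ((q))` as a ring homomorphism -/
def valF : FF ℚ 2 →+* LaurentSeries ℚ := algebraMap (FF ℚ 2) (LaurentSeries ℚ)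

theorem valF_apply (y : FF ℚ 2) : valF y = (y : LaurentSeries ℚ) := rfl

theorem valF_injective : Function.Injective valF := Subtype.val_injective

theorem coe_hF : ((hF : FF ℚ 2) : LaurentSeries ℚ) = hL := by
  rw [← valF_apply, hF, hL, map_div₀, map_mul, map_sub, map_sub, map_ofNat, map_ofNat, map_one,
    valF_apply, coe_xF]

/-- **`j h² = (h + 256)³`** in `FF ℚ 2`. -/
theorem jF_mul_hF_sq : jF ℚ 2 * hF ^ 2 = (hF + 256) ^ 3 := by
  apply valF_injective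
  rw [map_mul, map_pow, map_pow, map_add, map_ofNat, valF_apply, valF_apply, coe_hF, coe_jF]
  exact jq_hL

/-- **`j(q²) h = (h + 16)³`** in `FF ℚ 2`. -/
theorem jdF_mul_hF : jdF ℚ 2 (dvd_refl 2) * hF = (hF + 16) ^ 3 := by
  apply valF_injective
  rw [map_mul, map_pow, map_add, map_ofNat, valF_apply, valF_apply, coe_hF, coe_jdF]
  exact jq2_hL

/-- `h` has a pole at `∞`: `h · d = n` with `d(0) = 0`, `n(0) ≠ 0`. -/
theorem hF_pole : ∃ n d : ℚ⟦X⟧, constantCoeff d = 0 ∧ constantCoeff n ≠ 0 ∧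
    ((hF : FF ℚ 2) : LaurentSeries ℚ) * ofQ d = ofQ n :=
  ⟨nQ, dQ, constantCoeff_dQ, by rw [constantCoeff_nQ]; norm_num, by rw [coe_hF, hL_mul_dQ]⟩

end Fermat.Agent.S36.Haupt.Two
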