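import Mathlib
import Fermat.Agent.S36.Haupt.Two
import Fermat.Agent.N4F.E.DegreeLevelRaise

/-!
# S36 / [AUX-H], step 5 (helper10): the Hauptmodul `t` of `Γ₀(4)` inside `FF ℚ 4`

`h₁ := h(q)`, `h₂ := h(q²) ∈ FF ℚ (2·2)` satisfy `(h₁+16)³ h₂² = (h₂+256)³ h₁` (both sides are
`j(q²) h₁ h₂²`); this factors as `(h₁h₂ − 4096)·(−Q)` with
`Q = h₂² − (h₁²+48h₁) h₂ − 4096 h₁`, and `h₁ h₂` has a pole, so `Q = 0`.  Then
`t := (h₂ − 16 h₁)/(h₁ + 16)` satisfies `t² = h₁ (t + 16)`, `h₂ = t (t + 16)` and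

* `jF_mul_tF : j · t⁴ (t + 16) = (t² + 256 t + 4096)³`,
* `tF_ne_zero`, `tF_add_ne_zero`.
-/

set_option autoImplicit false

noncomputable section

namespace Fermat.Agent.S36.Haupt.Four

open PowerSeries ModularCurve
open Fermat.Agent.N4.Setting Fermat.Agent.S36.Haupt.Two
open Fermat.Agent.N4F.E.DegreeLevelRaise

local notation "ofQ" => HahnSeries.ofPowerSeries ℤ ℚ

/-- `h(q)` at level `4`. -/
def h1 : FF ℚ (2 * 2) := alphaF ℚ 2 2 hF

/-- `h(q²)` at level `4`. -/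
def h2 : FF ℚ (2 * 2) := betaF ℚ 2 2 hF

theorem coe_h1 : ((h1 : FF ℚ (2 * 2)) : LaurentSeries ℚ) = hL := by
  rw [h1, coe_alphaF, coe_hF]

theorem coe_h2 : ((h2 : FF ℚ (2 * 2)) : LaurentSeries ℚ) = qExpand ℚ 2 hL := by
  rw [h2, coe_betaF, coe_hF]

/-- `j(q²)` at level `4`. -/
def jd2 : FF ℚ (2 * 2) := jdF ℚ (2 * 2) (dvd_mul_left 2 2)

theorem rel_I : jF ℚ (2 * 2) * h1 ^ 2 = (h1 + 256) ^ 3 := by
  have h := congrArg (alphaF ℚ 2 2) jF_mul_hF_sq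
  rw [map_mul, map_pow, map_pow, map_add, map_ofNat, alphaF_jF] at h
  exact h

theorem rel_II : jd2 * h1 = (h1 + 16) ^ 3 := by
  have h := congrArg (alphaF ℚ 2 2) jdF_mul_hF
  rw [map_mul, map_pow, map_add, map_ofNat, alphaF_jdF] at h
  exact h

theorem rel_I' : jd2 * h2 ^ 2 = (h2 + 256) ^ 3 := by
  have h := congrArg (betaF ℚ 2 2) jF_mul_hF_sq
  rw [map_mul, map_pow, map_pow, map_add, map_ofNat, betaF_jF] at h
  exact h

/-! ### `h₁`, `h₂` are not constant -/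

theorem hL_mul_dQ' : qExpand ℚ 2 hL * ofQ (expand 2 two_ne_zero dQ) = ofQ (expand 2 two_ne_zero nQ) := by
  rw [← Fermat.Agent.N4.Kronecker.qExpand_ofPowerSeries, ← Fermat.Agent.N4.Kronecker.qExpand_ofPowerSeries,
    ← map_mul, hL_mul_dQ]

theorem h1_mul_h2_ne : h1 * h2 ≠ 4096 := by
  intro h
  have h' := congrArg (fun y : FF ℚ (2 * 2) => (y : LaurentSeries ℚ)) h
  have e : (((4096 : FF ℚ (2 * 2))) : LaurentSeries ℚ) = 4096 :=
    map_ofNat (algebraMap (FF ℚ (2 * 2)) (LaurentSeries ℚ)) 4096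
  rw [e] at h'
  have e2 : ((h1 * h2 : FF ℚ (2 * 2)) : LaurentSeries ℚ) = hL * qExpand ℚ 2 hL := by
    have : ((h1 * h2 : FF ℚ (2 * 2)) : LaurentSeries ℚ) =
      (h1 : LaurentSeries ℚ) * (h2 : LaurentSeries ℚ) := rfl
    rw [this, coe_h1, coe_h2]
  rw [e2] at h'
  have key : ofQ (4096 * (dQ * expand 2 two_ne_zero dQ)) = ofQ (nQ * expand 2 two_ne_zero nQ) := by
    rw [map_mul, map_mul, map_mul, map_ofNat, ← hL_mul_dQ, ← hL_mul_dQ', ← h']
    ring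
  have key' := congrArg constantCoeff (ofQ_injective key)
  rw [map_mul, map_mul, map_mul, constantCoeff_expand, constantCoeff_expand, constantCoeff_dQ,
    constantCoeff_nQ] at key'
  norm_num at key'

theorem h1_ne_const (c : ℚ) : h1 ≠ algebraMap ℚ (FF ℚ (2 * 2)) c := by
  intro h
  have h' := congrArg (fun y : FF ℚ (2 * 2) => (y : LaurentSeries ℚ)) h
  rw [coe_h1] at h'
  have e : ((algebraMap ℚ (FF ℚ (2 * 2)) c : FF ℚ (2 * 2)) : LaurentSeries ℚ) = ofQ (C c) := by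
    rw [HahnSeries.ofPowerSeries_C]
    rfl
  rw [e] at h'
  have key : ofQ (C c * dQ) = ofQ nQ := by
    rw [map_mul, ← h', hL_mul_dQ]
  have key' := congrArg constantCoeff (ofQ_injective key)
  rw [map_mul, constantCoeff_dQ, constantCoeff_nQ] at key'
  norm_num at key'


/-! ### The modular equation between `h₁` and `h₂` -/

theorem rel_P : (h1 + 16) ^ 3 * h2 ^ 2 = (h2 + 256) ^ 3 * h1 := by
  linear_combination (-(h2 ^ 2)) * rel_II + h1 * rel_I'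

theorem rel_Q : h2 ^ 2 - (h1 ^ 2 + 48 * h1) * h2 - 4096 * h1 = 0 := by
  have hne : h1 * h2 - 4096 ≠ 0 := sub_ne_zero.mpr h1_mul_h2_ne
  apply mul_left_cancel₀ hne
  linear_combination (-1 : FF ℚ (2 * 2)) * rel_P

instance : CharZero (FF ℚ (2 * 2)) :=
  charZero_of_injective_algebraMap (algebraMap ℚ (FF ℚ (2 * 2))).injective

theorem h1_add_ne_zero : h1 + 16 ≠ 0 := by
  intro h
  apply h1_ne_const (-16)
  rw [map_neg, map_ofNat]
  linear_combination h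

theorem h1_ne_zero : h1 ≠ 0 := by
  intro h
  apply h1_ne_const 0
  rw [map_zero, h]

/-- **The Hauptmodul of `Γ₀(4)`**, `t = q⁻¹ − 8 + 20 q − …`, as an element of `FF ℚ 4`. -/
def tF : FF ℚ (2 * 2) := (h2 - 16 * h1) / (h1 + 16)

theorem tF_mul : tF * (h1 + 16) = h2 - 16 * h1 := by
  rw [tF, div_mul_cancel₀ _ h1_add_ne_zero]

/-- `t² = h₁ (t + 16)`, i.e. `h(q) = t²/(t+16)`. -/
theorem tF_sq : tF ^ 2 = h1 * (tF + 16) := by
  apply mul_left_cancel₀ (pow_ne_zero 2 h1_add_ne_zero)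
  linear_combination (tF * (h1 + 16) + (h2 - 16 * h1) - h1 * (h1 + 16)) * tF_mul + rel_Q

/-- `h(q²) = t (t + 16)`. -/
theorem h2_eq : h2 = tF * (tF + 16) := by
  apply mul_left_cancel₀ (pow_ne_zero 2 h1_add_ne_zero)
  linear_combination (-(tF * (h1 + 16) + (h2 - 16 * h1) + 16 * (h1 + 16))) * tF_mul - rel_Q

theorem tF_ne_zero : tF ≠ 0 := by
  intro h
  have h' := tF_sq
  rw [h] at h'
  have : h1 * 16 = 0 := by linear_combination -h'
  rcases mul_eq_zero.mp this with h0 | h0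
  · exact h1_ne_zero h0
  · norm_num at h0

theorem tF_add_ne_zero : tF + 16 ≠ 0 := by
  intro h
  have h' := tF_sq
  rw [h, mul_zero] at h'
  have h0 : tF = 0 := pow_eq_zero_iff (two_ne_zero) |>.mp h'
  rw [h0] at h
  norm_num at h

/-- **`j · t⁴ (t + 16) = (t² + 256 t + 4096)³`** in `FF ℚ 4`. -/
theorem jF_mul_tF : jF ℚ (2 * 2) * tF ^ 4 * (tF + 16) = (tF ^ 2 + 256 * tF + 4096) ^ 3 := by
  linear_combination (tF + 16) ^ 3 * rel_I +
    (jF ℚ (2 * 2) * (tF + 16) * (tF ^ 2 + h1 * (tF + 16)) -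
      ((tF ^ 2 + 256 * (tF + 16)) ^ 2 +
        (tF ^ 2 + 256 * (tF + 16)) * (h1 * (tF + 16) + 256 * (tF + 16)) +
        (h1 * (tF + 16) + 256 * (tF + 16)) ^ 2)) * tF_sq

/-- `(j − 1728) · t⁴ (t + 16) = ((t + 32)(t² − 512 t − 8192))²`. -/
theorem jF_sub_mul_tF : (jF ℚ (2 * 2) - 1728) * (tF ^ 4 * (tF + 16)) =
    ((tF + 32) * (tF ^ 2 - 512 * tF - 8192)) ^ 2 := by
  linear_combination jF_mul_tF

/-- `j(q²) · t² (t + 16)² = (t² + 16 t + 256)³`. -/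
theorem jd2_mul_tF : jd2 * (tF * (tF + 16)) ^ 2 = (tF ^ 2 + 16 * tF + 256) ^ 3 := by
  have h := rel_I'
  rw [h2_eq] at h
  linear_combination h

end Fermat.Agent.S36.Haupt.Four
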