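import Mathlib
import Fermat.Agent.S36.Haupt.Four
import Fermat.Agent.S36.AuxLvl.OrdAbs
import Fermat.Agent.N4.BaseDescent

/-!
# S36 / [AUX-H], step 6 (helper10): the Hauptmodul `t` of `Γ₀(4)` in the chart `Rfin K N O`, `4 ∣ N`

`K` a field of characteristic `0`, `O ⊆ K` a subring, `4 ∣ N`.

* `tK K N h4 : FF K N`  — the image of `Four.tF` under `FF ℚ 4 → FF ℚ N → FF K N`;
* `rel4_tK : Rel4 (jF K N) (tK K N h4)`, i.e. `j · t⁴ (t + 16) = (t² + 256 t + 4096)³`;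
* `tFin K N O h4 : Rfin K N O` (no hypothesis on `O`: `t` is integral over `ℤ[j]`);
* if `2 ∈ Oˣ`: `isUnit_tFin`, `isUnit_tFin_add` (`4096/t` and `256/(t+16)` are integral over `ℤ[j]`);
* `jFin_mul_tFin` : the relation inside `Rfin`;
* consumer forms `exists_hauptmodul4`, `exists_cube_square`:
  `jFin = c³ u`, `jFin − 1728 = d² u`, `u` a unit, `c = e² + 3 r`.
-/

set_option autoImplicit false
set_option linter.unusedSectionVars false

noncomputable section

namespace Fermat.Agent.S36.Haupt.FourRfin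

open Polynomial ModularCurve
open Fermat.Agent.N4.Setting Fermat.Agent.N4.Chart Fermat.Agent.N4.BaseDescent
open Fermat.Agent.S36.Haupt.Four Fermat.Agent.S36.AuxLvl.OrdAbs
open Fermat.Agent.N4F.E.DegreeLevelRaise

/-! ### Three integrality lemmas -/

section Integrality

variable {A B : Type*} [CommRing A] [CommRing B] [Algebra A B]

theorem isIntegral_of_rel4 (j : A) (t : B)
    (h : algebraMap A B j * t ^ 4 * (t + 16) = (t ^ 2 + 256 * t + 4096) ^ 3) : IsIntegral A t := by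
  nontriviality A
  refine ⟨(X ^ 2 + C 256 * X + C 4096) ^ 3 - C j * X ^ 4 * (X + C 16), by monicity!, ?_⟩
  rw [← aeval_def]
  simp only [map_sub, map_pow, map_add, map_mul, aeval_X, aeval_C, map_ofNat]
  linear_combination -h

theorem isIntegral_of_rel4_dual (j : A) (y : B)
    (h : (y ^ 2 + 256 * y + 4096) ^ 3 = 65536 * algebraMap A B j * y * (y + 256)) :
    IsIntegral A y := by
  nontriviality A
  refine ⟨(X ^ 2 + C 256 * X + C 4096) ^ 3 - C 65536 * C j * X * (X + C 256), by monicity!, ?_⟩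
  rw [← aeval_def]
  simp only [map_sub, map_pow, map_add, map_mul, aeval_X, aeval_C, map_ofNat]
  linear_combination h

theorem isIntegral_of_rel4_dual' (j : A) (w : B)
    (h : (w ^ 2 + 224 * w + 256) ^ 3 = algebraMap A B j * w * (16 - w) ^ 4) :
    IsIntegral A w := by
  nontriviality A
  refine ⟨(X ^ 2 + C 224 * X + C 256) ^ 3 - C j * X * (C 16 - X) ^ 4, by monicity!, ?_⟩
  rw [← aeval_def]
  simp only [map_sub, map_pow, map_add, map_mul, aeval_X, aeval_C, map_ofNat]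
  linear_combination h

end Integrality

variable (K : Type) [Field K] [CharZero K] (N : ℕ) [NeZero N]

/-- the base change `FF ℚ 4 → FF ℚ N → FF K N` -/
def toK (h4 : 2 * 2 ∣ N) : FF ℚ (2 * 2) →+* FF K N :=
  (ffMap (algebraMap ℚ K) N).comp (RingHomClass.toRingHom (inclF ℚ h4))

theorem toK_jF (h4 : 2 * 2 ∣ N) : toK K N h4 (jF ℚ (2 * 2)) = jF K N := by
  rw [toK, RingHom.comp_apply]
  have : RingHomClass.toRingHom (inclF ℚ h4) (jF ℚ (2 * 2)) = jF ℚ N := inclF_jF ℚ h4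
  rw [this, ffMap_jF]

/-- **The Hauptmodul of `Γ₀(4)` in `FF K N`, `4 ∣ N`.** -/
def tK (h4 : 2 * 2 ∣ N) : FF K N := toK K N h4 tF

/-- `j · t⁴ (t + 16) = (t² + 256 t + 4096)³` in `FF K N`. -/
theorem rel4_tK (h4 : 2 * 2 ∣ N) : Rel4 (jF K N) (tK K N h4) := by
  have h := congrArg (toK K N h4) jF_mul_tF
  simp only [map_mul, map_pow, map_add, map_ofNat, toK_jF] at h
  exact h

instance charZero_FF : CharZero (FF K N) :=
  charZero_of_injective_algebraMap (algebraMap K (FF K N)).injective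

theorem tK_ne_zero (h4 : 2 * 2 ∣ N) : tK K N h4 ≠ 0 :=
  (rel4_tK K N h4).ne_zero two_ne_zero

theorem tK_add_ne_zero (h4 : 2 * 2 ∣ N) : tK K N h4 + 16 ≠ 0 :=
  (rel4_tK K N h4).add_ne_zero two_ne_zero

variable (O : Subring K)

/-- `j` as an element of `O[j]`. -/
def jAdj : Algebra.adjoin ↥O ({jF K N} : Set (FF K N)) :=
  ⟨jF K N, Algebra.subset_adjoin (Set.mem_singleton _)⟩

theorem algebraMap_jAdj :
    algebraMap (Algebra.adjoin ↥O ({jF K N} : Set (FF K N))) (FF K N) (jAdj K N O) = jF K N := rfl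

theorem tK_mem (h4 : 2 * 2 ∣ N) : tK K N h4 ∈ Rfin K N O := by
  rw [mem_chartAlg_iff]
  exact isIntegral_of_rel4 (jAdj K N O) _ (by rw [algebraMap_jAdj]; exact rel4_tK K N h4)

theorem dual_mem (h4 : 2 * 2 ∣ N) : 4096 / tK K N h4 ∈ Rfin K N O := by
  rw [mem_chartAlg_iff]
  exact isIntegral_of_rel4_dual (jAdj K N O) _
    (by rw [algebraMap_jAdj]; exact (rel4_tK K N h4).dual (tK_ne_zero K N h4))

theorem dual'_mem (h4 : 2 * 2 ∣ N) : 256 / (tK K N h4 + 16) ∈ Rfin K N O := by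
  rw [mem_chartAlg_iff]
  exact isIntegral_of_rel4_dual' (jAdj K N O) _
    (by rw [algebraMap_jAdj]; exact (rel4_tK K N h4).dual' (tK_add_ne_zero K N h4))

/-- **The Hauptmodul of `Γ₀(4)` as an element of the chart `Rfin K N O`.** -/
def tFin (h4 : 2 * 2 ∣ N) : Rfin K N O := ⟨tK K N h4, tK_mem K N O h4⟩

@[simp] theorem coe_tFin (h4 : 2 * 2 ∣ N) : ((tFin K N O h4 : Rfin K N O) : FF K N) = tK K N h4 := rfl

/-- **`j · t⁴ (t + 16) = (t² + 256 t + 4096)³`** in `Rfin K N O`. -/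
theorem jFin_mul_tFin (h4 : 2 * 2 ∣ N) :
    jFin K N O * tFin K N O h4 ^ 4 * (tFin K N O h4 + 16) =
      (tFin K N O h4 ^ 2 + 256 * tFin K N O h4 + 4096) ^ 3 := by
  apply Subtype.ext
  exact rel4_tK K N h4

theorem isUnit_ofNat_pow (h2 : IsUnit (2 : ↥O)) (n : ℕ) : IsUnit ((2 : Rfin K N O) ^ n) := by
  have h := (h2.pow n).map (algebraMap ↥O (Rfin K N O))
  rwa [map_pow, map_ofNat] at h

/-- `t` is a unit of `Rfin K N O` when `2 ∈ Oˣ`. -/
theorem isUnit_tFin (h4 : 2 * 2 ∣ N) (h2 : IsUnit (2 : ↥O)) : IsUnit (tFin K N O h4) := by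
  have h1 : tFin K N O h4 * ⟨4096 / tK K N h4, dual_mem K N O h4⟩ = 2 ^ 12 := by
    apply Subtype.ext
    show tK K N h4 * (4096 / tK K N h4) = 2 ^ 12
    rw [mul_div_cancel₀ _ (tK_ne_zero K N h4)]
    norm_num
  exact isUnit_of_mul_isUnit_left (h1 ▸ isUnit_ofNat_pow K N O h2 12)

/-- `t + 16` is a unit of `Rfin K N O` when `2 ∈ Oˣ`. -/
theorem isUnit_tFin_add (h4 : 2 * 2 ∣ N) (h2 : IsUnit (2 : ↥O)) :
    IsUnit (tFin K N O h4 + 16) := by
  have h1 : (tFin K N O h4 + 16) * ⟨256 / (tK K N h4 + 16), dual'_mem K N O h4⟩ = 2 ^ 8 := by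
    apply Subtype.ext
    show (tK K N h4 + 16) * (256 / (tK K N h4 + 16)) = 2 ^ 8
    rw [mul_div_cancel₀ _ (tK_add_ne_zero K N h4)]
    norm_num
  exact isUnit_of_mul_isUnit_left (h1 ▸ isUnit_ofNat_pow K N O h2 8)

/-- **[AUX-H4], main export.**  For `4 ∣ N` and `2 ∈ Oˣ` the chart `Rfin K N O` contains the
Hauptmodul `t` of `Γ₀(4)`: `t` and `t + 16` are units and
`j · t⁴ (t + 16) = (t² + 256 t + 4096)³`. -/
theorem exists_hauptmodul4 (h4 : 4 ∣ N) (h2 : IsUnit (2 : ↥O)) :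
    ∃ t : Rfin K N O, IsUnit t ∧ IsUnit (t + 16) ∧
      jFin K N O * t ^ 4 * (t + 16) = (t ^ 2 + 256 * t + 4096) ^ 3 :=
  ⟨tFin K N O h4, isUnit_tFin K N O h4 h2, isUnit_tFin_add K N O h4 h2, jFin_mul_tFin K N O h4⟩

/-- **[AUX-H4], consumer form.**  `j = c³ u`, `j − 1728 = d² u` with `u` a unit, and `c` is a
square modulo `3`. -/
theorem exists_cube_square (h4 : 4 ∣ N) (h2 : IsUnit (2 : ↥O)) :
    ∃ c d u : Rfin K N O, IsUnit u ∧ jFin K N O = c ^ 3 * u ∧ jFin K N O - 1728 = d ^ 2 * u ∧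
      ∃ e r : Rfin K N O, c = e ^ 2 + 3 * r := by
  obtain ⟨t, ht, ht16, h⟩ := exists_hauptmodul4 K N O h4 h2
  refine ⟨t ^ 2 + 256 * t + 4096, (t + 32) * (t ^ 2 - 512 * t - 8192),
    ((ht.unit ^ 4 * ht16.unit)⁻¹ : (Rfin K N O)ˣ), Units.isUnit _, ?_, ?_, t - 1, 86 * t + 1365, by ring⟩
  · rw [Units.eq_mul_inv_iff_mul_eq]
    simp only [Units.val_mul, Units.val_pow_eq_pow_val, IsUnit.unit_spec]
    linear_combination h
  · rw [Units.eq_mul_inv_iff_mul_eq]
    simp only [Units.val_mul, Units.val_pow_eq_pow_val, IsUnit.unit_spec]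
    linear_combination h

end Fermat.Agent.S36.Haupt.FourRfin
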