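/-
S36 / [AUX-H9] part 1 (helper4): **the ring of modular forms of level `Γ₀(3)` in weights `≤ 8`,
as identities between integral `q`-series.**

`A := eisP 3 / 2 = (3 E₂(3z) − E₂(z)) / 2 = 1 + 12 ∑ σ'(n) qⁿ` (weight `2` on `Γ₀(3)`).  By Sturm's
bound at level `3` (`k ψ(3) / 12 = k / 3`, so only the coefficients of `q⁰, q¹, q²` have to be
compared):

* `8 A E₆ = 27 A⁴ − 18 A² E₄ − E₄²`            (weight `8`),
* `9 E₄(3z) = 10 A² − E₄`                       (weight `4`),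
* `27 E₆(3z) = 35 A³ − 7 A E₄ − E₆`             (weight `6`).

They are exported as identities in `ℤ⟦X⟧` between `a3`, `eisenstein4`, `eis6` and
`PowerSeries.expand 3`.
-/
import Mathlib
import Fermat.Agent.S36.AuxTools.SturmPrime
import Fermat.Agent.S16.EisP
import Fermat.Agent.S16.BetaLemmaD

set_option autoImplicit false
set_option linter.unusedSectionVars false

namespace Fermat.Agent.S36.Haupt.NineForms

open UpperHalfPlane ModularForm MatrixGroups CongruenceSubgroup Filter Function PowerSeries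
open EisensteinSeries
open Fermat.Agent.M2 Fermat.Agent.S24.QExp Fermat.Agent.S16.Bridge Fermat.Agent.S16.EisP
open Fermat.Agent.S36.AuxTools Fermat.Agent.S36.AuxTools.SturmPrime Fermat.Agent.S16.BetaLemma ModularCurve

local notation "toC" => PowerSeries.map (Int.castRingHom ℂ)

/-! ### Truncation modulo `X ^ n` -/

section Trunc

variable {R : Type*} [CommRing R]

/-- The quotient map `R⟦X⟧ → R⟦X⟧ / (Xⁿ)`. -/
noncomputable def trq (n : ℕ) : R⟦X⟧ →+* R⟦X⟧ ⧸ Ideal.span {(X : R⟦X⟧) ^ n} :=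
  Ideal.Quotient.mk _

theorem trq_eq_iff (n : ℕ) (P Q : R⟦X⟧) :
    trq n P = trq n Q ↔ ∀ m < n, coeff m P = coeff m Q := by
  rw [trq, Ideal.Quotient.eq, Ideal.mem_span_singleton, X_pow_dvd_iff]
  refine forall_congr' fun m => forall_congr' fun _ => ?_
  rw [map_sub, sub_eq_zero]

theorem trq_X_pow (n : ℕ) : trq n ((X : R⟦X⟧) ^ n) = 0 := by
  rw [trq, Ideal.Quotient.eq_zero_iff_mem]
  exact Ideal.mem_span_singleton_self _

/-- Coefficients of an explicit quadratic polynomial. -/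
theorem coeff_quad (c0 c1 c2 : R) (m : ℕ) :
    coeff m (C c0 + C c1 * X + C c2 * X ^ 2 : R⟦X⟧) =
      if m = 0 then c0 else if m = 1 then c1 else if m = 2 then c2 else 0 := by
  rw [map_add, map_add, coeff_C, coeff_C_mul, coeff_C_mul, coeff_X, coeff_X_pow]
  rcases m with _ | _ | _ | m <;> simp

/-- A series agrees modulo `X³` with the quadratic polynomial of its first three coefficients. -/
theorem trq_three_eq (P : R⟦X⟧) (c0 c1 c2 : R) (h0 : coeff 0 P = c0) (h1 : coeff 1 P = c1)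
    (h2 : coeff 2 P = c2) :
    trq 3 P = trq 3 (C c0 + C c1 * X + C c2 * X ^ 2) := by
  rw [trq_eq_iff]
  intro m hm
  rw [coeff_quad]
  interval_cases m
  · simpa using h0
  · simpa using h1
  · simpa using h2

end Trunc

/-! ### The integral series -/

/-- The `q`-expansion of `A = eisP 3 / 2`. -/
def a3 : PowerSeries ℤ :=
  PowerSeries.mk fun n => if n = 0 then 1 else 12 * (sigmaPrime 3 n : ℤ)

@[simp] theorem constantCoeff_a3 : constantCoeff a3 = 1 := by
  rw [← coeff_zero_eq_constantCoeff]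
  simp [a3]

theorem coeff_a3_zero : coeff 0 a3 = 1 := by simp [a3]

theorem coeff_a3_one : coeff 1 a3 = 12 := by
  simp only [a3, coeff_mk]
  decide

theorem coeff_a3_two : coeff 2 a3 = 36 := by
  simp only [a3, coeff_mk]
  decide

theorem coeff_eisenstein4_zero : coeff 0 eisenstein4 = 1 := by simp [eisenstein4]

theorem coeff_eisenstein4_one : coeff 1 eisenstein4 = 240 := by
  simp only [eisenstein4, coeff_mk]
  decide

theorem coeff_eisenstein4_two : coeff 2 eisenstein4 = 2160 := by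
  simp only [eisenstein4, coeff_mk]
  decide

theorem coeff_eis6_zero : coeff 0 eis6 = 1 := by simp [eis6]

theorem coeff_eis6_one : coeff 1 eis6 = -504 := by
  simp only [eis6, coeff_mk]
  decide

theorem coeff_eis6_two : coeff 2 eis6 = -16632 := by
  simp only [eis6, coeff_mk]
  decide

theorem trq_a3 : trq 3 a3 = trq 3 (1 + 12 * X + 36 * X ^ 2 : ℤ⟦X⟧) := by
  have := trq_three_eq a3 1 12 36 coeff_a3_zero coeff_a3_one coeff_a3_two
  simpa only [map_one, map_ofNat] using this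

theorem trq_eisenstein4 :
    trq 3 eisenstein4 = trq 3 (1 + 240 * X + 2160 * X ^ 2 : ℤ⟦X⟧) := by
  have := trq_three_eq eisenstein4 1 240 2160 coeff_eisenstein4_zero coeff_eisenstein4_one
    coeff_eisenstein4_two
  simpa only [map_one, map_ofNat] using this

theorem trq_eis6 : trq 3 eis6 = trq 3 (1 + (-504) * X + (-16632) * X ^ 2 : ℤ⟦X⟧) := by
  have := trq_three_eq eis6 1 (-504) (-16632) coeff_eis6_zero coeff_eis6_one coeff_eis6_two
  simpa only [map_one, map_ofNat, map_neg] using this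

theorem trq_expand_three (P : ℤ⟦X⟧) (h0 : coeff 0 P = 1) :
    trq 3 (P.expand 3 (by norm_num)) = trq 3 (1 : ℤ⟦X⟧) := by
  rw [trq_eq_iff]
  intro m hm
  rw [coeff_expand, coeff_one]
  interval_cases m
  · simpa using h0
  · simp
  · simp

/-! ### The three identities modulo `X ^ 3` -/

theorem trq_identity_one :
    trq 3 (8 * a3 * eis6) =
      trq 3 (27 * a3 ^ 4 - 18 * a3 ^ 2 * eisenstein4 - eisenstein4 ^ 2) := by
  have key : (8 * (1 + 12 * X + 36 * X ^ 2) * (1 + (-504) * X + (-16632) * X ^ 2) -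
      (27 * (1 + 12 * X + 36 * X ^ 2) ^ 4 -
        18 * (1 + 12 * X + 36 * X ^ 2) ^ 2 * (1 + 240 * X + 2160 * X ^ 2) -
        (1 + 240 * X + 2160 * X ^ 2) ^ 2) : ℤ⟦X⟧) =
      X ^ 3 * ((850176) + (9580032) * X ^ 1 + (27433728) * X ^ 2 + (15116544) * X ^ 3 +
        (-60466176) * X ^ 4 + (-45349632) * X ^ 5) := by ring
  have h0 := congrArg (trq 3) key
  rw [map_mul (trq 3) (X ^ 3), trq_X_pow, zero_mul, map_sub, sub_eq_zero] at h0
  have e1 : trq 3 (8 * a3 * eis6) =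
      trq 3 (8 * (1 + 12 * X + 36 * X ^ 2) * (1 + (-504) * X + (-16632) * X ^ 2)) := by
    simp only [map_mul, trq_a3, trq_eis6]
  have e2 : trq 3 (27 * a3 ^ 4 - 18 * a3 ^ 2 * eisenstein4 - eisenstein4 ^ 2) =
      trq 3 (27 * (1 + 12 * X + 36 * X ^ 2) ^ 4 -
        18 * (1 + 12 * X + 36 * X ^ 2) ^ 2 * (1 + 240 * X + 2160 * X ^ 2) -
        (1 + 240 * X + 2160 * X ^ 2) ^ 2) := by
    simp only [map_sub, map_mul, map_pow, trq_a3, trq_eisenstein4]
  rw [e1, e2, h0]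

theorem trq_identity_two :
    trq 3 (9 * eisenstein4.expand 3 (by norm_num)) = trq 3 (10 * a3 ^ 2 - eisenstein4) := by
  have key : (9 * 1 - (10 * (1 + 12 * X + 36 * X ^ 2) ^ 2 - (1 + 240 * X + 2160 * X ^ 2)) : ℤ⟦X⟧) =
      X ^ 3 * ((-8640) + (-12960) * X ^ 1) := by ring
  have h0 := congrArg (trq 3) key
  rw [map_mul (trq 3) (X ^ 3), trq_X_pow, zero_mul, map_sub, sub_eq_zero] at h0
  have e1 : trq 3 (9 * eisenstein4.expand 3 (by norm_num)) = trq 3 (9 * 1 : ℤ⟦X⟧) := by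
    simp only [map_mul, trq_expand_three eisenstein4 coeff_eisenstein4_zero]
  have e2 : trq 3 (10 * a3 ^ 2 - eisenstein4) =
      trq 3 (10 * (1 + 12 * X + 36 * X ^ 2) ^ 2 - (1 + 240 * X + 2160 * X ^ 2)) := by
    simp only [map_sub, map_mul, map_pow, trq_a3, trq_eisenstein4]
  rw [e1, e2, h0]

theorem trq_identity_three :
    trq 3 (27 * eis6.expand 3 (by norm_num)) =
      trq 3 (35 * a3 ^ 3 - 7 * a3 * eisenstein4 - eis6) := by
  have key : (27 * 1 - (35 * (1 + 12 * X + 36 * X ^ 2) ^ 3 -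
      7 * (1 + 12 * X + 36 * X ^ 2) * (1 + 240 * X + 2160 * X ^ 2) -
      (1 + (-504) * X + (-16632) * X ^ 2)) : ℤ⟦X⟧) =
      X ^ 3 * ((90720) + (-136080) * X ^ 1 + (-1632960) * X ^ 2 + (-1632960) * X ^ 3) := by ring
  have h0 := congrArg (trq 3) key
  rw [map_mul (trq 3) (X ^ 3), trq_X_pow, zero_mul, map_sub, sub_eq_zero] at h0
  have e1 : trq 3 (27 * eis6.expand 3 (by norm_num)) = trq 3 (27 * 1 : ℤ⟦X⟧) := by
    simp only [map_mul, trq_expand_three eis6 coeff_eis6_zero]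
  have e2 : trq 3 (35 * a3 ^ 3 - 7 * a3 * eisenstein4 - eis6) =
      trq 3 (35 * (1 + 12 * X + 36 * X ^ 2) ^ 3 -
        7 * (1 + 12 * X + 36 * X ^ 2) * (1 + 240 * X + 2160 * X ^ 2) -
        (1 + (-504) * X + (-16632) * X ^ 2)) := by
    simp only [map_sub, map_mul, map_pow, trq_a3, trq_eisenstein4, trq_eis6]
  rw [e1, e2, h0]

/-- Equality modulo `X³` of integral series gives equality of the first three complex
coefficients. -/
theorem coeff_toC_eq_of_trq {P Q : ℤ⟦X⟧} (h : trq 3 P = trq 3 Q) {n : ℕ} (hn : n ≤ 2) :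
    coeff n (toC P) = coeff n (toC Q) := by
  rw [coeff_map, coeff_map, (trq_eq_iff 3 P Q).mp h n (by omega)]

/-! ### The forms -/

/-- `A = eisP 3 / 2`, of weight `2` on `Γ₀(3)`. -/
noncomputable def A3 : ℍ → ℂ := (1 / 2 : ℂ) • ⇑(eisP 3)

theorem isFormLike_A3 : IsFormLike (Gamma0 3) 2 A3 :=
  (IsFormLike.ofModularForm (eisP 3)).const_smul _

theorem isFormLike_E4 : IsFormLike (Gamma0 3) 4 (⇑E₄) :=
  (IsFormLike.ofLevelOne E₄).mono le_top

theorem isFormLike_E6 : IsFormLike (Gamma0 3) 6 (⇑E₆) :=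
  (IsFormLike.ofLevelOne E₆).mono le_top

theorem isFormLike_E4s : IsFormLike (Gamma0 3) 4 (⇑E₄ ∘ JN.scaleH 3) :=
  IsFormLike.ofLevelOne_comp_scaleH E₄ (dvd_refl 3)

theorem isFormLike_E6s : IsFormLike (Gamma0 3) 6 (⇑E₆ ∘ JN.scaleH 3) :=
  IsFormLike.ofLevelOne_comp_scaleH E₆ (dvd_refl 3)

theorem qExpansion_A3 : qExpansion 1 A3 = toC a3 := by
  have hH : IsHol (⇑(eisP 3)) := (IsFormLike.ofModularForm (eisP 3)).isHol_Gamma0
  rw [A3, Fermat.Agent.S36.AuxTools.SturmPrime.qExpansion_smul _ hH]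
  ext n
  rw [coeff_smul, qExpansion_eisP_coeff', coeff_map, a3, coeff_mk]
  by_cases hn : n = 0
  · simp only [hn, if_true]
    norm_num
  · simp only [hn, if_false, smul_eq_mul, eq_intCast]
    push_cast
    ring

theorem qExpansion_E4s :
    qExpansion 1 (⇑E₄ ∘ JN.scaleH 3) = toC (eisenstein4.expand 3 (by norm_num)) := by
  rw [(IsFormLike.ofLevelOne E₄).qExpansion_comp_scaleH 3,
    Fermat.Agent.S24.QExp.qExpansion_E₄]
  ext n
  simp only [coeff_expand, coeff_map]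
  split_ifs <;> simp

theorem qExpansion_E6s :
    qExpansion 1 (⇑E₆ ∘ JN.scaleH 3) = toC (eis6.expand 3 (by norm_num)) := by
  rw [(IsFormLike.ofLevelOne E₆).qExpansion_comp_scaleH 3, qExpansion_E₆]
  ext n
  simp only [coeff_expand, coeff_map]
  split_ifs <;> simp

/-! ### Sturm's bound at level `3` -/

theorem dedekindPsi_three : ModularCurve.dedekindPsi 3 = 4 := by
  have : Fact (Nat.Prime 3) := ⟨by norm_num⟩
  exact Fermat.Agent.N4.Kronecker.dedekindPsi_prime 3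

theorem sturm_bound_eight : ((8 : ℤ) * (ModularCurve.dedekindPsi 3 : ℤ)).toNat / 12 = 2 := by
  rw [dedekindPsi_three]; decide

theorem sturm_bound_four : ((4 : ℤ) * (ModularCurve.dedekindPsi 3 : ℤ)).toNat / 12 = 1 := by
  rw [dedekindPsi_three]; decide

theorem sturm_bound_six : ((6 : ℤ) * (ModularCurve.dedekindPsi 3 : ℤ)).toNat / 12 = 2 := by
  rw [dedekindPsi_three]; decide

/-! ### The three identities between functions -/

theorem isHol_A3 : IsHol A3 := isFormLike_A3.isHol_Gamma0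
theorem isHol_E4 : IsHol (⇑E₄) := isFormLike_E4.isHol_Gamma0
theorem isHol_E6 : IsHol (⇑E₆) := isFormLike_E6.isHol_Gamma0
theorem isHol_E4s : IsHol (⇑E₄ ∘ JN.scaleH 3) := isFormLike_E4s.isHol_Gamma0
theorem isHol_E6s : IsHol (⇑E₆ ∘ JN.scaleH 3) := isFormLike_E6s.isHol_Gamma0

theorem ofNat_smul_eq (n : ℕ) [n.AtLeastTwo] (P : ℂ⟦X⟧) :
    (OfNat.ofNat n : ℂ) • P = (OfNat.ofNat n : ℂ⟦X⟧) * P := by
  rw [PowerSeries.smul_eq_C_mul, map_ofNat]

/-- `8 A E₆ = 27 A⁴ − 18 A² E₄ − E₄²`. -/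
theorem identity_one_fun :
    (8 : ℂ) • (A3 * ⇑E₆) = (27 : ℂ) • A3 ^ 4 - (18 : ℂ) • (A3 ^ 2 * ⇑E₄) - (⇑E₄) ^ 2 := by
  have hF : IsFormLike (Gamma0 3) 8 ((8 : ℂ) • (A3 * ⇑E₆)) :=
    ((isFormLike_A3.mul isFormLike_E6).congr_weight (by norm_num)).const_smul 8
  have hG : IsFormLike (Gamma0 3) 8
      ((27 : ℂ) • A3 ^ 4 - (18 : ℂ) • (A3 ^ 2 * ⇑E₄) - (⇑E₄) ^ 2) :=
    ((((isFormLike_A3.pow 4).congr_weight (by norm_num)).const_smul 27).sub
      ((((isFormLike_A3.pow 2).mul isFormLike_E4).congr_weight (by norm_num)).const_smul 18)).sub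
      ((isFormLike_E4.pow 2).congr_weight (by norm_num))
  refine hF.eq_of_coeff_eq hG fun n hn => ?_
  rw [sturm_bound_eight] at hn
  have q1 : qExpansion 1 ((8 : ℂ) • (A3 * ⇑E₆)) = toC (8 * a3 * eis6) := by
    rw [SturmPrime.qExpansion_smul _ (isHol_A3.mul isHol_E6), isHol_A3.qExpansion_mul isHol_E6,
      qExpansion_A3, qExpansion_E₆, ofNat_smul_eq, map_mul, map_mul, map_ofNat, mul_assoc]
  have q2 : qExpansion 1 ((27 : ℂ) • A3 ^ 4 - (18 : ℂ) • (A3 ^ 2 * ⇑E₄) - (⇑E₄) ^ 2) =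
      toC (27 * a3 ^ 4 - 18 * a3 ^ 2 * eisenstein4 - eisenstein4 ^ 2) := by
    rw [SturmPrime.qExpansion_sub
        (isHol_sub (isHol_smul _ (isHol_A3.pow 4)) (isHol_smul _ ((isHol_A3.pow 2).mul isHol_E4)))
        (isHol_E4.pow 2),
      SturmPrime.qExpansion_sub (isHol_smul _ (isHol_A3.pow 4))
        (isHol_smul _ ((isHol_A3.pow 2).mul isHol_E4)),
      SturmPrime.qExpansion_smul _ (isHol_A3.pow 4),
      SturmPrime.qExpansion_smul _ ((isHol_A3.pow 2).mul isHol_E4),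
      (isHol_A3.pow 2).qExpansion_mul isHol_E4, isHol_A3.qExpansion_pow, isHol_A3.qExpansion_pow,
      isHol_E4.qExpansion_pow, qExpansion_A3, Fermat.Agent.S24.QExp.qExpansion_E₄,
      ofNat_smul_eq, ofNat_smul_eq]
    simp only [map_sub, map_mul, map_pow, map_ofNat, mul_assoc]
  rw [q1, q2]
  exact coeff_toC_eq_of_trq trq_identity_one hn

/-- `9 E₄(3z) = 10 A² − E₄`. -/
theorem identity_two_fun :
    (9 : ℂ) • (⇑E₄ ∘ JN.scaleH 3) = (10 : ℂ) • A3 ^ 2 - ⇑E₄ := by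
  have hF : IsFormLike (Gamma0 3) 4 ((9 : ℂ) • (⇑E₄ ∘ JN.scaleH 3)) :=
    isFormLike_E4s.const_smul 9
  have hG : IsFormLike (Gamma0 3) 4 ((10 : ℂ) • A3 ^ 2 - ⇑E₄) :=
    (((isFormLike_A3.pow 2).congr_weight (by norm_num)).const_smul 10).sub isFormLike_E4
  refine hF.eq_of_coeff_eq hG fun n hn => ?_
  rw [sturm_bound_four] at hn
  have q1 : qExpansion 1 ((9 : ℂ) • (⇑E₄ ∘ JN.scaleH 3)) =
      toC (9 * eisenstein4.expand 3 (by norm_num)) := by
    rw [SturmPrime.qExpansion_smul _ isHol_E4s, qExpansion_E4s, ofNat_smul_eq, map_mul, map_ofNat]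
  have q2 : qExpansion 1 ((10 : ℂ) • A3 ^ 2 - ⇑E₄) = toC (10 * a3 ^ 2 - eisenstein4) := by
    rw [SturmPrime.qExpansion_sub (isHol_smul _ (isHol_A3.pow 2)) isHol_E4,
      SturmPrime.qExpansion_smul _ (isHol_A3.pow 2), isHol_A3.qExpansion_pow, qExpansion_A3,
      Fermat.Agent.S24.QExp.qExpansion_E₄, ofNat_smul_eq]
    simp only [map_sub, map_mul, map_pow, map_ofNat]
  rw [q1, q2]
  exact coeff_toC_eq_of_trq trq_identity_two (by omega)

/-- `27 E₆(3z) = 35 A³ − 7 A E₄ − E₆`. -/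
theorem identity_three_fun :
    (27 : ℂ) • (⇑E₆ ∘ JN.scaleH 3) = (35 : ℂ) • A3 ^ 3 - (7 : ℂ) • (A3 * ⇑E₄) - ⇑E₆ := by
  have hF : IsFormLike (Gamma0 3) 6 ((27 : ℂ) • (⇑E₆ ∘ JN.scaleH 3)) :=
    isFormLike_E6s.const_smul 27
  have hG : IsFormLike (Gamma0 3) 6 ((35 : ℂ) • A3 ^ 3 - (7 : ℂ) • (A3 * ⇑E₄) - ⇑E₆) :=
    ((((isFormLike_A3.pow 3).congr_weight (by norm_num)).const_smul 35).sub
      (((isFormLike_A3.mul isFormLike_E4).congr_weight (by norm_num)).const_smul 7)).sub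
      isFormLike_E6
  refine hF.eq_of_coeff_eq hG fun n hn => ?_
  rw [sturm_bound_six] at hn
  have q1 : qExpansion 1 ((27 : ℂ) • (⇑E₆ ∘ JN.scaleH 3)) =
      toC (27 * eis6.expand 3 (by norm_num)) := by
    rw [SturmPrime.qExpansion_smul _ isHol_E6s, qExpansion_E6s, ofNat_smul_eq, map_mul, map_ofNat]
  have q2 : qExpansion 1 ((35 : ℂ) • A3 ^ 3 - (7 : ℂ) • (A3 * ⇑E₄) - ⇑E₆) =
      toC (35 * a3 ^ 3 - 7 * a3 * eisenstein4 - eis6) := by
    rw [SturmPrime.qExpansion_sub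
        (isHol_sub (isHol_smul _ (isHol_A3.pow 3)) (isHol_smul _ (isHol_A3.mul isHol_E4)))
        isHol_E6,
      SturmPrime.qExpansion_sub (isHol_smul _ (isHol_A3.pow 3))
        (isHol_smul _ (isHol_A3.mul isHol_E4)),
      SturmPrime.qExpansion_smul _ (isHol_A3.pow 3),
      SturmPrime.qExpansion_smul _ (isHol_A3.mul isHol_E4),
      isHol_A3.qExpansion_mul isHol_E4, isHol_A3.qExpansion_pow, qExpansion_A3,
      Fermat.Agent.S24.QExp.qExpansion_E₄, qExpansion_E₆, ofNat_smul_eq, ofNat_smul_eq]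
    simp only [map_sub, map_mul, map_pow, map_ofNat, mul_assoc]
  rw [q1, q2]
  exact coeff_toC_eq_of_trq trq_identity_three hn

/-! ### The identities in `ℤ⟦X⟧` -/

theorem toC_injective : Function.Injective (toC : ℤ⟦X⟧ → ℂ⟦X⟧) :=
  PowerSeries.map_injective (Int.castRingHom ℂ) Int.cast_injective

/-- **`8 a e₆ = 27 a⁴ − 18 a² e₄ − e₄²`** in `ℤ⟦X⟧`. -/
theorem identity_one :
    8 * a3 * eis6 = 27 * a3 ^ 4 - 18 * a3 ^ 2 * eisenstein4 - eisenstein4 ^ 2 := by
  apply toC_injective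
  have h := congrArg (qExpansion 1) identity_one_fun
  rw [SturmPrime.qExpansion_smul _ (isHol_A3.mul isHol_E6), isHol_A3.qExpansion_mul isHol_E6,
    SturmPrime.qExpansion_sub
      (isHol_sub (isHol_smul _ (isHol_A3.pow 4)) (isHol_smul _ ((isHol_A3.pow 2).mul isHol_E4)))
      (isHol_E4.pow 2),
    SturmPrime.qExpansion_sub (isHol_smul _ (isHol_A3.pow 4))
      (isHol_smul _ ((isHol_A3.pow 2).mul isHol_E4)),
    SturmPrime.qExpansion_smul _ (isHol_A3.pow 4),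
    SturmPrime.qExpansion_smul _ ((isHol_A3.pow 2).mul isHol_E4),
    (isHol_A3.pow 2).qExpansion_mul isHol_E4, isHol_A3.qExpansion_pow, isHol_A3.qExpansion_pow,
    isHol_E4.qExpansion_pow, qExpansion_A3, Fermat.Agent.S24.QExp.qExpansion_E₄, qExpansion_E₆,
    ofNat_smul_eq, ofNat_smul_eq, ofNat_smul_eq] at h
  simp only [map_sub, map_mul, map_pow, map_ofNat]
  linear_combination h

/-- **`9 e₄(X³) = 10 a² − e₄`** in `ℤ⟦X⟧`. -/
theorem identity_two :
    9 * eisenstein4.expand 3 (by norm_num) = 10 * a3 ^ 2 - eisenstein4 := by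
  apply toC_injective
  have h := congrArg (qExpansion 1) identity_two_fun
  rw [SturmPrime.qExpansion_smul _ isHol_E4s, qExpansion_E4s,
    SturmPrime.qExpansion_sub (isHol_smul _ (isHol_A3.pow 2)) isHol_E4,
    SturmPrime.qExpansion_smul _ (isHol_A3.pow 2), isHol_A3.qExpansion_pow, qExpansion_A3,
    Fermat.Agent.S24.QExp.qExpansion_E₄, ofNat_smul_eq, ofNat_smul_eq] at h
  simp only [map_sub, map_mul, map_pow, map_ofNat]
  rw [h]

/-- **`27 e₆(X³) = 35 a³ − 7 a e₄ − e₆`** in `ℤ⟦X⟧`. -/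
theorem identity_three :
    27 * eis6.expand 3 (by norm_num) = 35 * a3 ^ 3 - 7 * a3 * eisenstein4 - eis6 := by
  apply toC_injective
  have h := congrArg (qExpansion 1) identity_three_fun
  rw [SturmPrime.qExpansion_smul _ isHol_E6s, qExpansion_E6s,
    SturmPrime.qExpansion_sub
      (isHol_sub (isHol_smul _ (isHol_A3.pow 3)) (isHol_smul _ (isHol_A3.mul isHol_E4)))
      isHol_E6,
    SturmPrime.qExpansion_sub (isHol_smul _ (isHol_A3.pow 3))
      (isHol_smul _ (isHol_A3.mul isHol_E4)),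
    SturmPrime.qExpansion_smul _ (isHol_A3.pow 3),
    SturmPrime.qExpansion_smul _ (isHol_A3.mul isHol_E4),
    isHol_A3.qExpansion_mul isHol_E4, isHol_A3.qExpansion_pow, qExpansion_A3,
    Fermat.Agent.S24.QExp.qExpansion_E₄, qExpansion_E₆, ofNat_smul_eq, ofNat_smul_eq,
    ofNat_smul_eq] at h
  simp only [map_sub, map_mul, map_pow, map_ofNat]
  linear_combination h

end Fermat.Agent.S36.Haupt.NineForms
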