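/-
S36 / [AUX-H9] part 2 (helper4): **the Hauptmodul `h = (η(z)/η(3z))¹²` of `Γ₀(3)` as an element of
`FF ℚ 3 ⊆ ℚ((q))`, with its two `j`-identities.**

With `a = q`-expansion of `A = eisP 3 / 2`, `e₄, e₆` those of `E₄, E₆` (all in `ℚ((q))`):

  `hL := 27 (9 a² − e₄) / (e₄ − a²) = q⁻¹ − 12 + 54 q − …`

* `hL_mem       : hL ∈ modularFunctionFieldFullC ℚ 3` (quotient of two forms of weight `4`, helper16's
  `Bridge.ratio_mem`);
* `j_mul_hL_cube : j · h³ = (h + 27)(h + 243)³`;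
* `j3_mul_hL     : j(q³) · h = (h + 27)(h + 3)³`;
* `exists_lead   : q · h = ` a power series with constant coefficient `1`.

Everything is derived from the three level-`3` identities of `NineForms` by pure algebra
(`alg_a`, `alg_b`).
-/
import Mathlib
import Fermat.Agent.S36.Haupt.NineForms
import Fermat.Agent.S16.Bridge.AtkinLehnerFF
import Fermat.Agent.S16.BetaLemma
import Fermat.Agent.N4.Kronecker

set_option autoImplicit false
set_option linter.unusedSectionVars false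

namespace Fermat.Agent.S36.Haupt.Three

open UpperHalfPlane ModularForm MatrixGroups CongruenceSubgroup Filter Function PowerSeries
open EisensteinSeries
open Fermat.Agent.M2 Fermat.Agent.S24.QExp Fermat.Agent.S16.Bridge Fermat.Agent.S16.EisP
open Fermat.Agent.S36.AuxTools Fermat.Agent.S36.AuxTools.SturmPrime Fermat.Agent.S16.BetaLemma
open Fermat.Agent.S36.Haupt.NineForms ModularCurve

local notation "toC" => PowerSeries.map (Int.castRingHom ℂ)
local notation "toQ" => PowerSeries.map (Int.castRingHom ℚ)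
local notation "ofQ" => HahnSeries.ofPowerSeries ℤ ℚ

/-! ### Pure algebra -/

section Algebra

variable {F : Type*} [Field F]

/-- Level `3`, first identity: `j h³ = (h + 27)(h + 243)³` for `h = 27 (9a² − e₄)/(e₄ − a²)`. -/
theorem alg_a (a e4 e6 Δ j : F) (hj : j * Δ = e4 ^ 3) (hΔ : e4 ^ 3 - e6 ^ 2 = 1728 * Δ)
    (h1 : 8 * a * e6 = 27 * a ^ 4 - 18 * a ^ 2 * e4 - e4 ^ 2) (hu : e4 - a ^ 2 ≠ 0) :
    j * (27 * (9 * a ^ 2 - e4) / (e4 - a ^ 2)) ^ 3 =
      (27 * (9 * a ^ 2 - e4) / (e4 - a ^ 2) + 27) *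
        (27 * (9 * a ^ 2 - e4) / (e4 - a ^ 2) + 243) ^ 3 := by
  have S2 : 64 * 1728 * Δ * a ^ 2 = (e4 - a ^ 2) * (9 * a ^ 2 - e4) ^ 3 := by
    linear_combination (-64 * a ^ 2) * hΔ
      + (-(8 * a * e6 + (27 * a ^ 4 - 18 * a ^ 2 * e4 - e4 ^ 2))) * h1
  have key : j * (27 * (9 * a ^ 2 - e4)) ^ 3 * (e4 - a ^ 2) =
      (216 * a ^ 2) * (216 * e4) ^ 3 := by
    linear_combination (216 ^ 4 * a ^ 2) * hj - (27 ^ 3 * j) * S2
  have e1 : 27 * (9 * a ^ 2 - e4) / (e4 - a ^ 2) + 27 = 216 * a ^ 2 / (e4 - a ^ 2) := by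
    field_simp
    ring
  have e2 : 27 * (9 * a ^ 2 - e4) / (e4 - a ^ 2) + 243 = 216 * e4 / (e4 - a ^ 2) := by
    field_simp
    ring
  rw [e1, e2]
  field_simp
  linear_combination key

/-- Level `3`, second identity: `j(q³) h = (h + 27)(h + 3)³`. -/
theorem alg_b (a e4 e6 e4' e6' Δ' j' : F) (hj : j' * Δ' = e4' ^ 3)
    (hΔ : e4' ^ 3 - e6' ^ 2 = 1728 * Δ')
    (h1 : 8 * a * e6 = 27 * a ^ 4 - 18 * a ^ 2 * e4 - e4 ^ 2)
    (h2 : 9 * e4' = 10 * a ^ 2 - e4)
    (h3 : 27 * e6' = 35 * a ^ 3 - 7 * a * e4 - e6)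
    (hu : e4 - a ^ 2 ≠ 0) :
    j' * (27 * (9 * a ^ 2 - e4) / (e4 - a ^ 2)) =
      (27 * (9 * a ^ 2 - e4) / (e4 - a ^ 2) + 27) *
        (27 * (9 * a ^ 2 - e4) / (e4 - a ^ 2) + 3) ^ 3 := by
  have S2 : 1728 * 46656 * Δ' * a ^ 2 = (e4 - a ^ 2) ^ 3 * (9 * a ^ 2 - e4) := by
    linear_combination (-46656 * a ^ 2) * hΔ
      + (64 * a ^ 2 * ((9 * e4') ^ 2 + 9 * e4' * (10 * a ^ 2 - e4) + (10 * a ^ 2 - e4) ^ 2)) * h2
      - (64 * a ^ 2 * (27 * e6' + (35 * a ^ 3 - 7 * a * e4 - e6))) * h3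
      + (2 * (280 * a ^ 4 - 56 * a ^ 2 * e4) - 8 * a * e6
          - (27 * a ^ 4 - 18 * a ^ 2 * e4 - e4 ^ 2)) * h1
  have key : j' * (27 * (9 * a ^ 2 - e4)) * (e4 - a ^ 2) ^ 3 =
      (216 * a ^ 2) * (216 * e4') ^ 3 := by
    linear_combination (216 ^ 4 * a ^ 2) * hj - (27 * j') * S2
  have e1 : 27 * (9 * a ^ 2 - e4) / (e4 - a ^ 2) + 27 = 216 * a ^ 2 / (e4 - a ^ 2) := by
    field_simp
    ring
  have e2 : 27 * (9 * a ^ 2 - e4) / (e4 - a ^ 2) + 3 = 216 * e4' / (e4 - a ^ 2) := by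
    field_simp
    linear_combination (-24 : F) * h2
  rw [e1, e2]
  field_simp
  linear_combination key

end Algebra

/-! ### Integral series as rational Laurent series -/

/-- `ℤ⟦X⟧ → ℚ((q))`. -/
noncomputable def castL : ℤ⟦X⟧ →+* LaurentSeries ℚ :=
  (HahnSeries.ofPowerSeries ℤ ℚ).comp (PowerSeries.map (Int.castRingHom ℚ))

theorem castL_apply (P : ℤ⟦X⟧) : castL P = ofQ (toQ P) := rfl

theorem castL_injective : Function.Injective castL := by
  intro P Q h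
  exact PowerSeries.map_injective (Int.castRingHom ℚ) Int.cast_injective
    (HahnSeries.ofPowerSeries_injective h)

theorem castL_eisenstein4 : castL eisenstein4 = E4K ℚ := rfl

theorem castL_eis6 : castL eis6 = E6K ℚ := rfl

theorem castL_delta : castL (X * dedekindEtaUnit) = DeltaK ℚ := rfl

theorem castL_expand (P : ℤ⟦X⟧) :
    castL (P.expand 3 (by norm_num)) = qExpand ℚ 3 (castL P) := by
  rw [castL_apply, castL_apply, Fermat.Agent.N4.Kronecker.qExpand_ofPowerSeries]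
  congr 1
  ext n
  simp only [coeff_expand, coeff_map]
  split_ifs <;> simp

/-- The `q`-expansion of `A = eisP 3 / 2` in `ℚ((q))`. -/
noncomputable def aL : LaurentSeries ℚ := castL a3

theorem laurent_identity_one :
    8 * aL * E6K ℚ = 27 * aL ^ 4 - 18 * aL ^ 2 * E4K ℚ - E4K ℚ ^ 2 := by
  have h := congrArg castL identity_one
  simpa only [map_sub, map_mul, map_pow, map_ofNat, castL_eisenstein4, castL_eis6, aL] using h

theorem laurent_identity_two :
    9 * qExpand ℚ 3 (E4K ℚ) = 10 * aL ^ 2 - E4K ℚ := by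
  have h := congrArg castL identity_two
  simpa only [map_sub, map_mul, map_pow, map_ofNat, castL_eisenstein4, castL_expand, aL] using h

theorem laurent_identity_three :
    27 * qExpand ℚ 3 (E6K ℚ) = 35 * aL ^ 3 - 7 * aL * E4K ℚ - E6K ℚ := by
  have h := congrArg castL identity_three
  simpa only [map_sub, map_mul, map_pow, map_ofNat, castL_eisenstein4, castL_eis6,
    castL_expand, aL] using h

/-! ### The denominator `e₄ − a²` -/

theorem coeff_one_a3_sq : coeff 1 (a3 ^ 2) = 24 := by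
  rw [pow_two, coeff_mul]
  have : (Finset.HasAntidiagonal.antidiagonal 1 : Finset (ℕ × ℕ)) = {(0, 1), (1, 0)} := by decide
  rw [this, Finset.sum_pair (by decide)]
  simp only [coeff_a3_zero, coeff_a3_one]
  norm_num

theorem constantCoeff_den : constantCoeff (eisenstein4 - a3 ^ 2) = 0 := by
  simp

/-- `e₄ − a² = X · w` with `w(0) = 216`. -/
theorem exists_den :
    ∃ w : ℤ⟦X⟧, eisenstein4 - a3 ^ 2 = X * w ∧ constantCoeff w = 216 := by
  obtain ⟨w, hw⟩ := X_dvd_iff.mpr constantCoeff_den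
  refine ⟨w, hw, ?_⟩
  have h1 : coeff 1 (eisenstein4 - a3 ^ 2) = 216 := by
    rw [map_sub, coeff_eisenstein4_one, coeff_one_a3_sq]
    norm_num
  rw [hw, show (1 : ℕ) = 0 + 1 from rfl, coeff_succ_X_mul, coeff_zero_eq_constantCoeff] at h1
  exact h1

theorem den_ne_zero : eisenstein4 - a3 ^ 2 ≠ 0 := by
  intro h
  have h1 : coeff 1 (eisenstein4 - a3 ^ 2) = 216 := by
    rw [map_sub, coeff_eisenstein4_one, coeff_one_a3_sq]
    norm_num
  rw [h] at h1
  simp at h1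

theorem denL_ne_zero : E4K ℚ - aL ^ 2 ≠ 0 := by
  have h : E4K ℚ - aL ^ 2 = castL (eisenstein4 - a3 ^ 2) := by
    rw [map_sub, map_pow, castL_eisenstein4, aL]
  rw [h]
  exact fun h0 => den_ne_zero (castL_injective (by rw [h0, map_zero]))

/-! ### The Hauptmodul -/

/-- **The Hauptmodul of `Γ₀(3)`**, `h = (η(z)/η(3z))¹² = q⁻¹ − 12 + 54 q − …`. -/
noncomputable def hL : LaurentSeries ℚ := 27 * (9 * aL ^ 2 - E4K ℚ) / (E4K ℚ - aL ^ 2)

/-- **`j · h³ = (h + 27)(h + 243)³`.** -/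
theorem j_mul_hL_cube : jqModC ℚ * hL ^ 3 = (hL + 27) * (hL + 243) ^ 3 :=
  alg_a aL (E4K ℚ) (E6K ℚ) (DeltaK ℚ) (jqModC ℚ) (jqModC_mul_DeltaK ℚ) (E4K_cube_sub' ℚ)
    laurent_identity_one denL_ne_zero

/-- **`j(q³) · h = (h + 27)(h + 3)³`.** -/
theorem j3_mul_hL : qExpand ℚ 3 (jqModC ℚ) * hL = (hL + 27) * (hL + 3) ^ 3 := by
  have hj := congrArg (qExpand ℚ 3) (jqModC_mul_DeltaK ℚ)
  have hΔ := congrArg (qExpand ℚ 3) (E4K_cube_sub' ℚ)
  rw [map_mul, map_pow] at hj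
  rw [map_sub, map_pow, map_pow, map_mul, map_ofNat] at hΔ
  exact alg_b aL (E4K ℚ) (E6K ℚ) (qExpand ℚ 3 (E4K ℚ)) (qExpand ℚ 3 (E6K ℚ))
    (qExpand ℚ 3 (DeltaK ℚ)) (qExpand ℚ 3 (jqModC ℚ)) hj hΔ laurent_identity_one
    laurent_identity_two laurent_identity_three denL_ne_zero

/-! ### Membership in the function field of level `3` -/

theorem map_toQ (P : ℤ⟦X⟧) : (toQ P).map (algebraMap ℚ ℂ) = toC P := by
  ext n
  simp only [coeff_map, eq_intCast, eq_ratCast, Rat.cast_intCast]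

theorem qExpansion_num :
    qExpansion 1 ((27 : ℂ) • ((9 : ℂ) • A3 ^ 2 - ⇑E₄)) =
      toC (27 * (9 * a3 ^ 2 - eisenstein4)) := by
  rw [SturmPrime.qExpansion_smul _ (isHol_sub (isHol_smul _ (isHol_A3.pow 2)) isHol_E4),
    SturmPrime.qExpansion_sub (isHol_smul _ (isHol_A3.pow 2)) isHol_E4,
    SturmPrime.qExpansion_smul _ (isHol_A3.pow 2), isHol_A3.qExpansion_pow, qExpansion_A3,
    Fermat.Agent.S24.QExp.qExpansion_E₄, ofNat_smul_eq, ofNat_smul_eq]
  simp only [map_sub, map_mul, map_pow, map_ofNat]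

theorem qExpansion_den :
    qExpansion 1 (⇑E₄ - A3 ^ 2) = toC (eisenstein4 - a3 ^ 2) := by
  rw [SturmPrime.qExpansion_sub isHol_E4 (isHol_A3.pow 2), isHol_A3.qExpansion_pow, qExpansion_A3,
    Fermat.Agent.S24.QExp.qExpansion_E₄]
  simp only [map_sub, map_pow]

theorem den_fun_ne_zero : (⇑E₄ - A3 ^ 2 : ℍ → ℂ) ≠ 0 := by
  intro h
  have h1 := (isHol_sub isHol_E4 (isHol_A3.pow 2)).qExpansion_eq_zero_iff.mpr h
  rw [qExpansion_den] at h1
  exact den_ne_zero (toC_injective (by rw [h1, map_zero]))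

theorem hL_eq :
    hL = ofQ (toQ (27 * (9 * a3 ^ 2 - eisenstein4))) / ofQ (toQ (eisenstein4 - a3 ^ 2)) := by
  rw [hL, aL, castL_apply]
  simp only [map_sub, map_mul, map_pow, map_ofNat]
  rfl

/-- **`h ∈ FF ℚ 3`.** -/
theorem hL_mem : hL ∈ modularFunctionFieldFullC ℚ 3 := by
  have hA : IsFormLike (Gamma0 3) ((4 : ℕ) : ℤ) ((27 : ℂ) • ((9 : ℂ) • A3 ^ 2 - ⇑E₄)) :=
    (((((isFormLike_A3.pow 2).congr_weight (by norm_num)).const_smul 9).sub
      isFormLike_E4).const_smul 27).congr_weight (by norm_num)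
  have hB : IsFormLike (Gamma0 3) ((4 : ℕ) : ℤ) (⇑E₄ - A3 ^ 2) :=
    (isFormLike_E4.sub ((isFormLike_A3.pow 2).congr_weight (by norm_num))).congr_weight
      (by norm_num)
  have ha : HasRatQ ((27 : ℂ) • ((9 : ℂ) • A3 ^ 2 - ⇑E₄))
      (toQ (27 * (9 * a3 ^ 2 - eisenstein4))) := by
    rw [HasRatQ, qExpansion_num, map_toQ]
  have hb : HasRatQ (⇑E₄ - A3 ^ 2) (toQ (eisenstein4 - a3 ^ 2)) := by
    rw [HasRatQ, qExpansion_den, map_toQ]
  rw [hL_eq]
  exact ratio_mem hA hB den_fun_ne_zero ha hb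

/-! ### The leading term -/

/-- **`q · h` is a power series with constant coefficient `1`** (`h = q⁻¹ − 12 + …`). -/
theorem exists_lead : ∃ U : ℚ⟦X⟧, constantCoeff U = 1 ∧ hL * ofQ X = ofQ U := by
  obtain ⟨w, hw, hw0⟩ := exists_den
  have hwq : constantCoeff (toQ w) = 216 := by
    have : constantCoeff (toQ w) = (Int.castRingHom ℚ) (constantCoeff w) := by
      rw [← coeff_zero_eq_constantCoeff, coeff_map, coeff_zero_eq_constantCoeff]
    rw [this, hw0]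
    norm_num
  have hwq0 : constantCoeff (toQ w) ≠ 0 := by
    rw [hwq]
    norm_num
  refine ⟨toQ (27 * (9 * a3 ^ 2 - eisenstein4)) * (toQ w)⁻¹, ?_, ?_⟩
  · rw [map_mul, PowerSeries.constantCoeff_inv, hwq]
    have : constantCoeff (toQ (27 * (9 * a3 ^ 2 - eisenstein4))) = 216 := by
      rw [← coeff_zero_eq_constantCoeff, coeff_map, coeff_zero_eq_constantCoeff]
      simp only [map_mul, map_sub, map_pow, constantCoeff_a3, constantCoeff_eisenstein4,
        map_ofNat]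
      norm_num
    rw [this]
    norm_num
  · have h1 : ofQ (toQ w) * ofQ (toQ w)⁻¹ = 1 := by
      rw [← map_mul, PowerSeries.mul_inv_cancel _ hwq0, map_one]
    have h2 : ofQ (toQ w) ≠ 0 := left_ne_zero_of_mul_eq_one h1
    have hX : (ofQ X : LaurentSeries ℚ) ≠ 0 := by
      rw [HahnSeries.ofPowerSeries_X]
      exact HahnSeries.single_ne_zero one_ne_zero
    have h3 : (ofQ (toQ w)⁻¹ : LaurentSeries ℚ) = (ofQ (toQ w))⁻¹ :=
      eq_inv_of_mul_eq_one_right h1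
    have h4 : ofQ (toQ (X * w)) = ofQ X * ofQ (toQ w) := by
      rw [map_mul (toQ), PowerSeries.map_X, map_mul (ofQ)]
    rw [hL_eq, hw, h4, map_mul (ofQ), h3]
    field_simp

end Fermat.Agent.S36.Haupt.Three
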