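/-
S36 / [AUX-H9] part 3 (helper4): **the Hauptmodul `s = η(z)³/η(9z)³` of `Γ₀(9)` as an element of
`FF ℚ 9 ⊆ ℚ((q))`, with its `j`-identity.**

With `h = (η(z)/η(3z))¹² ∈ FF ℚ 3` (`Three.hL`) and `k := h(q³) ∈ FF ℚ 9`, the two expressions
of `j(q³)` give the relation `(h+27)(h+3)³ k³ = (k+27)(k+243)³ h`, which factors as
`(h k − 729) · G₉(h, k) = 0`; `h k ≠ 729` (look at the pole), so `G₉(h,k) = 0`, and

  `sL := (k (h² + 18 h + 27) + 1458 h) / (h k + 9 k − 243 h + 729)`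

satisfies `h (s² + 9 s + 27) = s³`, `k = s (s² + 9 s + 27)` and hence

  **`j · s⁹ (s² + 9 s + 27) = (s + 9)³ (s³ + 243 s² + 2187 s + 6561)³`**.

In characteristic `2` this reads `j = (s + 1)¹² / (s⁹ (s² + s + 1))`: the source of `12 ∣ ord(j̄)`
at the supersingular point for `q = 2`.
-/
import Mathlib
import Fermat.Agent.S36.Haupt.Three
import Fermat.Agent.N4F.E.DegreeLevelRaise

set_option autoImplicit false
set_option linter.unusedSectionVars false

namespace Fermat.Agent.S36.Haupt.Nine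

open PowerSeries ModularCurve
open Fermat.Agent.S36.Haupt.Three Fermat.Agent.N4.Setting Fermat.Agent.N4F.E.DegreeLevelRaise

local notation "ofQ" => HahnSeries.ofPowerSeries ℤ ℚ

/-! ### Pure algebra -/

section Algebra

variable {F : Type*} [Field F]

/-- The `X₀(9)`-component of the level-`3` correspondence, parametrised. -/
theorem alg_nine (h k j' N D s : F)
    (hA : j' * h = (h + 27) * (h + 3) ^ 3)
    (hB : j' * k ^ 3 = (k + 27) * (k + 243) ^ 3)
    (hne : h * k - 729 ≠ 0)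
    (hN : N = k * (h ^ 2 + 18 * h + 27) + 1458 * h)
    (hD : D = h * k + 9 * k - 243 * h + 729) (hD0 : D ≠ 0) (hs : s = N / D) :
    h * (s ^ 2 + 9 * s + 27) = s ^ 3 ∧ k = s * (s ^ 2 + 9 * s + 27) := by
  have hG : (h * k - 729) * (h ^ 3 * k ^ 2 + 36 * h ^ 2 * k ^ 2 + 729 * h ^ 2 * k +
      270 * h * k ^ 2 + 26244 * h * k + 531441 * h - k ^ 3) = 0 := by
    linear_combination (-k ^ 3) * hA + h * hB
  have hG9 : h ^ 3 * k ^ 2 + 36 * h ^ 2 * k ^ 2 + 729 * h ^ 2 * k + 270 * h * k ^ 2 +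
      26244 * h * k + 531441 * h - k ^ 3 = 0 := (mul_eq_zero.mp hG).resolve_left hne
  have E1 : h * (N ^ 2 * D + 9 * N * D ^ 2 + 27 * D ^ 3) = N ^ 3 := by
    rw [hN, hD]
    linear_combination (-243 * h ^ 3 - 5103 * h ^ 2 - 6561 * h + 19683) * hG9
  have E2 : k * D ^ 3 = N * (N ^ 2 + 9 * N * D + 27 * D ^ 2) := by
    rw [hN, hD]
    linear_combination
      (-h ^ 3 * k - 27 * h ^ 2 * k - 1458 * h ^ 2 - 243 * h * k - 729 * k - 39366) * hG9
  constructor
  · rw [hs]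
    field_simp
    linear_combination E1
  · rw [hs]
    field_simp
    linear_combination E2

/-- `j` in terms of `s`. -/
theorem alg_js (j h s : F) (hC : j * h ^ 3 = (h + 27) * (h + 243) ^ 3)
    (hm : h * (s ^ 2 + 9 * s + 27) = s ^ 3) :
    j * s ^ 9 * (s ^ 2 + 9 * s + 27) =
      (s + 9) ^ 3 * (s ^ 3 + 243 * s ^ 2 + 2187 * s + 6561) ^ 3 := by
  have e : j * (h * (s ^ 2 + 9 * s + 27)) ^ 3 * (s ^ 2 + 9 * s + 27) =
      (h * (s ^ 2 + 9 * s + 27) + 27 * (s ^ 2 + 9 * s + 27)) *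
        (h * (s ^ 2 + 9 * s + 27) + 243 * (s ^ 2 + 9 * s + 27)) ^ 3 := by
    linear_combination ((s ^ 2 + 9 * s + 27) ^ 4) * hC
  rw [hm] at e
  linear_combination e

end Algebra

/-! ### The two level-`3` functions at level `9` -/

/-- `k = h(q³)`. -/
noncomputable def kL : LaurentSeries ℚ := qExpand ℚ 3 hL

/-- `j(q³) · k³ = (k + 27)(k + 243)³`. -/
theorem j3_mul_kL_cube : qExpand ℚ 3 (jqModC ℚ) * kL ^ 3 = (kL + 27) * (kL + 243) ^ 3 := by
  have h := congrArg (qExpand ℚ 3) j_mul_hL_cube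
  simpa only [map_mul, map_pow, map_add, map_ofNat, kL] using h

/-- The uniformiser `q` of `ℚ((q))`. -/
noncomputable def tL : LaurentSeries ℚ := ofQ X

theorem tL_ne_zero : tL ≠ 0 := by
  rw [tL, HahnSeries.ofPowerSeries_X]
  exact HahnSeries.single_ne_zero one_ne_zero

theorem qExpand_tL : qExpand ℚ 3 tL = tL ^ 3 := by
  rw [tL, Fermat.Agent.N4.Kronecker.qExpand_ofPowerSeries, PowerSeries.expand_X, map_pow]

theorem constantCoeff_expand_three (U : ℚ⟦X⟧) :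
    constantCoeff (U.expand 3 (by norm_num)) = constantCoeff U := by
  rw [← coeff_zero_eq_constantCoeff, coeff_expand]
  simp

/-- The leading terms of `h` and `k`. -/
theorem exists_leads : ∃ U V : ℚ⟦X⟧, constantCoeff U = 1 ∧ constantCoeff V = 1 ∧
    hL * tL = ofQ U ∧ kL * tL ^ 3 = ofQ V := by
  obtain ⟨U, hU, hUL⟩ := exists_lead
  refine ⟨U, U.expand 3 (by norm_num), hU, by rw [constantCoeff_expand_three, hU], hUL, ?_⟩
  have h := congrArg (qExpand ℚ 3) hUL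
  rw [map_mul, Fermat.Agent.N4.Kronecker.qExpand_ofPowerSeries 3 U] at h
  rw [kL, ← qExpand_tL, tL]
  exact h

theorem ofQ_ne_zero_of_constantCoeff {P : ℚ⟦X⟧} (h : constantCoeff P = 1) :
    (ofQ P : LaurentSeries ℚ) ≠ 0 := by
  intro h0
  have : P = 0 := HahnSeries.ofPowerSeries_injective (by rw [h0, map_zero])
  rw [this, map_zero] at h
  exact zero_ne_one h

/-- `h k ≠ 729` : the pair `(h, k)` is not on the Fricke component. -/
theorem hk_ne : hL * kL - 729 ≠ 0 := by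
  obtain ⟨U, V, hU, hV, hUL, hVL⟩ := exists_leads
  intro h0
  have h1 : (hL * kL - 729) * tL ^ 4 = ofQ (U * V - 729 * X ^ 4) := by
    rw [map_sub, map_mul, map_mul, map_pow, map_ofNat, ← hUL, ← hVL, tL]
    ring
  rw [h0, zero_mul] at h1
  refine ofQ_ne_zero_of_constantCoeff (P := U * V - 729 * X ^ 4) ?_ h1.symm
  simp [hU, hV]

/-- The denominator of `s`. -/
noncomputable def DL : LaurentSeries ℚ := hL * kL + 9 * kL - 243 * hL + 729

/-- The numerator of `s`. -/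
noncomputable def NL : LaurentSeries ℚ := kL * (hL ^ 2 + 18 * hL + 27) + 1458 * hL

theorem DL_ne_zero : DL ≠ 0 := by
  obtain ⟨U, V, hU, hV, hUL, hVL⟩ := exists_leads
  intro h0
  have h1 : DL * tL ^ 4 = ofQ (U * V + 9 * V * X - 243 * U * X ^ 3 + 729 * X ^ 4) := by
    simp only [map_sub, map_add, map_mul, map_pow, map_ofNat, ← hUL, ← hVL, DL, tL]
    ring
  rw [h0, zero_mul] at h1
  refine ofQ_ne_zero_of_constantCoeff
    (P := U * V + 9 * V * X - 243 * U * X ^ 3 + 729 * X ^ 4) ?_ h1.symm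
  simp [hU, hV]

/-! ### The Hauptmodul of level `9` -/

/-- **The Hauptmodul of `Γ₀(9)`**, `s = η(z)³/η(9z)³ = q⁻¹ − 3 + 5 q² − 7 q⁵ + …`. -/
noncomputable def sL : LaurentSeries ℚ := NL / DL

theorem sL_relations :
    hL * (sL ^ 2 + 9 * sL + 27) = sL ^ 3 ∧ kL = sL * (sL ^ 2 + 9 * sL + 27) :=
  alg_nine hL kL (qExpand ℚ 3 (jqModC ℚ)) NL DL sL j3_mul_hL j3_mul_kL_cube hk_ne rfl rfl
    DL_ne_zero rfl

/-- **`j · s⁹ (s² + 9 s + 27) = (s + 9)³ (s³ + 243 s² + 2187 s + 6561)³`.** -/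
theorem j_mul_sL :
    jqModC ℚ * sL ^ 9 * (sL ^ 2 + 9 * sL + 27) =
      (sL + 9) ^ 3 * (sL ^ 3 + 243 * sL ^ 2 + 2187 * sL + 6561) ^ 3 :=
  alg_js (jqModC ℚ) hL sL j_mul_hL_cube sL_relations.1

theorem hL_ne_zero : hL ≠ 0 := by
  intro h0
  have h := j3_mul_hL
  rw [h0] at h
  norm_num at h
  have h2 : algebraMap ℚ (LaurentSeries ℚ) 729 = 0 := by
    rw [map_ofNat]
    exact h.symm
  have h3 : (729 : ℚ) = 0 := (algebraMap ℚ (LaurentSeries ℚ)).injective (by rw [h2, map_zero])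
  norm_num at h3

theorem kL_ne_zero : kL ≠ 0 := by
  rw [kL]
  exact (map_ne_zero (qExpand ℚ 3)).mpr hL_ne_zero

theorem sL_ne_zero : sL ≠ 0 := by
  intro h0
  have h := sL_relations.2
  rw [h0, zero_mul] at h
  exact kL_ne_zero h

theorem mL_ne_zero : sL ^ 2 + 9 * sL + 27 ≠ 0 := by
  intro h0
  have h := sL_relations.2
  rw [h0, mul_zero] at h
  exact kL_ne_zero h

/-! ### Membership -/

theorem hL_mem_nine : hL ∈ modularFunctionFieldFullC ℚ 9 :=
  full_degeneracyC_le ℚ (by norm_num : 3 ∣ 9) hL_mem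

theorem kL_mem_nine : kL ∈ modularFunctionFieldFullC ℚ 9 := by
  have h := full_degeneracyC_map_le ℚ 3 3
  exact h ⟨hL, hL_mem, rfl⟩

/-- **`s ∈ FF ℚ 9`.** -/
theorem sL_mem : sL ∈ modularFunctionFieldFullC ℚ 9 := by
  have h1 := hL_mem_nine
  have h2 := kL_mem_nine
  have h27 : (27 : LaurentSeries ℚ) ∈ modularFunctionFieldFullC ℚ 9 := ofNat_mem _ 27
  have h18 : (18 : LaurentSeries ℚ) ∈ modularFunctionFieldFullC ℚ 9 := ofNat_mem _ 18
  have h1458 : (1458 : LaurentSeries ℚ) ∈ modularFunctionFieldFullC ℚ 9 := ofNat_mem _ 1458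
  have h9 : (9 : LaurentSeries ℚ) ∈ modularFunctionFieldFullC ℚ 9 := ofNat_mem _ 9
  have h243 : (243 : LaurentSeries ℚ) ∈ modularFunctionFieldFullC ℚ 9 := ofNat_mem _ 243
  have h729 : (729 : LaurentSeries ℚ) ∈ modularFunctionFieldFullC ℚ 9 := ofNat_mem _ 729
  rw [sL, NL, DL]
  exact div_mem
    (add_mem (mul_mem h2 (add_mem (add_mem (pow_mem h1 2) (mul_mem h18 h1)) h27))
      (mul_mem h1458 h1))
    (add_mem (sub_mem (add_mem (mul_mem h1 h2) (mul_mem h9 h2)) (mul_mem h243 h1)) h729)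

/-- The Hauptmodul of level `9` as an element of `FF ℚ 9`. -/
noncomputable def sF : FF ℚ 9 := ⟨sL, sL_mem⟩

@[simp] theorem coe_sF : ((sF : FF ℚ 9) : LaurentSeries ℚ) = sL := rfl

theorem sF_ne_zero : sF ≠ 0 := fun h => sL_ne_zero (by simpa using congrArg Subtype.val h)

/-- **The `j`-identity in `FF ℚ 9`.** -/
theorem jF_mul_sF :
    jF ℚ 9 * sF ^ 9 * (sF ^ 2 + 9 * sF + 27) =
      (sF + 9) ^ 3 * (sF ^ 3 + 243 * sF ^ 2 + 2187 * sF + 6561) ^ 3 := by
  apply Subtype.ext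
  push_cast
  exact j_mul_sL

end Fermat.Agent.S36.Haupt.Nine
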