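/-
S36 / [AUX-H9] part 4 (helper4): **the Hauptmodul of level `9` in the finite chart `Rfin K N O`,
`9 ∣ N`, `3 ∈ Oˣ` — the consumer form for `q = 2`.**

`sK := ` the image of `Nine.sF ∈ FF ℚ 9` in `FF K N` (coefficientwise base change `ℚ → K`, then
`FF K 9 ⊆ FF K N`).  From `j s⁹ (s² + 9 s + 27) = c(s)`, `c(s) = ((s + 9)(s³ + 243 s² + 2187 s + 6561))³`:

* `s` is integral over `O[j]` (monic equation of degree `12`)                    : `sK_mem`;
* `c(s) = 3³⁰ + s · c₁(s)`  ⇒  `s · (j s⁸ m − c₁(s)) = 3³⁰`                      : `s ∈ Rfinˣ`;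
* `c(s) = Q(s) · m + 3¹⁸`, `m = s² + 9 s + 27`  ⇒  `m · (j s⁹ − Q(s)) = 3¹⁸`     : `m ∈ Rfinˣ`;
* `c(s) = (s + 1)¹² + 2 r(s)`                                                    : `exists_twelfth`.

Main statements: `exists_hauptmodul`, `exists_twelfth`.
-/
import Mathlib
import Fermat.Agent.S36.Haupt.Nine
import Fermat.Agent.N4.BaseDescent

set_option autoImplicit false
set_option linter.unusedSectionVars false

namespace Fermat.Agent.S36.Haupt.NineRfin

open Polynomial ModularCurve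
open Fermat.Agent.N4.Chart Fermat.Agent.N4.Setting Fermat.Agent.N4.BaseDescent
open Fermat.Agent.N4F.E.DegreeLevelRaise Fermat.Agent.S36.Haupt.Nine

/-! ### Integrality from the `j`-identity (abstract) -/

section Abstract

variable {A F : Type*} [CommRing A] [Nontrivial A] [CommRing F] [Algebra A F]

/-- The monic polynomial of degree `12` satisfied by `s` over `A ∋ j`. -/
noncomputable def relPoly (j : A) : A[X] :=
  (X + C 9) ^ 3 * (X ^ 3 + C 243 * X ^ 2 + C 2187 * X + C 6561) ^ 3 -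
    C j * X ^ 9 * (X ^ 2 + C 9 * X + C 27)

theorem relPoly_monic (j : A) : (relPoly j).Monic := by
  unfold relPoly
  have h1 : ((X + C 9 : A[X]) ^ 3 *
      (X ^ 3 + C 243 * X ^ 2 + C 2187 * X + C 6561) ^ 3).Monic := by
    monicity!
  refine h1.sub_of_left ?_
  have h2 : ((X + C 9 : A[X]) ^ 3 *
      (X ^ 3 + C 243 * X ^ 2 + C 2187 * X + C 6561) ^ 3).degree = 12 := by
    compute_degree!
  rw [h2]
  have h3 : (C j * X ^ 9 * (X ^ 2 + C 9 * X + C 27) : A[X]).degree ≤ 11 := by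
    compute_degree
  exact lt_of_le_of_lt h3 (by norm_num)

theorem isIntegral_of_rel (j : A) (s : F)
    (h : algebraMap A F j * s ^ 9 * (s ^ 2 + 9 * s + 27) =
      (s + 9) ^ 3 * (s ^ 3 + 243 * s ^ 2 + 2187 * s + 6561) ^ 3) : IsIntegral A s := by
  refine ⟨relPoly j, relPoly_monic j, ?_⟩
  rw [relPoly]
  simp only [eval₂_sub, eval₂_mul, eval₂_pow, eval₂_add, eval₂_X, eval₂_C]
  simp only [map_ofNat]
  rw [h, sub_self]

end Abstract

/-! ### The explicit cofactors -/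

section Cofactors

variable {R : Type*} [CommRing R]

/-- `c₁`, with `c(s) = 3³⁰ + s · c₁(s)`. -/
def cOne (s : R) : R :=
  (1) * s ^ 11 + (756) * s ^ 10 + (203634) * s ^ 9 + (22695228) * s ^ 8 + (930553191) * s ^ 7 +
    (20241524808) * s ^ 6 + (272112672348) * s ^ 5 + (2426801943096) * s ^ 4 +
    (14780479075839) * s ^ 3 + (61381352595204) * s ^ 2 + (167763144669714) * s +
    (274521509459532)

/-- `Q`, with `c(s) = Q(s) · (s² + 9 s + 27) + 3¹⁸`. -/
def cQuot (s : R) : R :=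
  (1) * s ^ 10 + (747) * s ^ 9 + (196884) * s ^ 8 + (20903103) * s ^ 7 + (737109396) * s ^ 6 +
    (13043156463) * s ^ 5 + (134822310489) * s ^ 4 + (861235924194) * s ^ 3 +
    (3389153374890) * s ^ 2 + (7625602267956) * s + (7625583136080)

/-- `r`, with `c(s) = (s + 1)¹² + 2 r(s)`. -/
def cHalf (s : R) : R :=
  (372) * s ^ 11 + (101784) * s ^ 10 + (11347504) * s ^ 9 + (465276348) * s ^ 8 +
    (10120762008) * s ^ 7 + (136056335712) * s ^ 6 + (1213400971152) * s ^ 5 +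
    (7390239537672) * s ^ 4 + (30690676297492) * s ^ 3 + (83881572334824) * s ^ 2 +
    (137260754729760) * s + (102945566047324)

theorem c_eq_cOne (s : R) :
    ((s + 9) * (s ^ 3 + 243 * s ^ 2 + 2187 * s + 6561)) ^ 3 = 3 ^ 30 + s * cOne s := by
  rw [cOne]; ring

theorem c_eq_cQuot (s : R) :
    ((s + 9) * (s ^ 3 + 243 * s ^ 2 + 2187 * s + 6561)) ^ 3 =
      cQuot s * (s ^ 2 + 9 * s + 27) + 3 ^ 18 := by
  rw [cQuot]; ring

theorem c_eq_cHalf (s : R) :
    ((s + 9) * (s ^ 3 + 243 * s ^ 2 + 2187 * s + 6561)) ^ 3 = (s + 1) ^ 12 + 2 * cHalf s := by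
  rw [cHalf]; ring

/-- The two unit statements and the `12`-th power statement, in any commutative ring in which `3` is
invertible. -/
theorem units_of_rel (j s i3 : R) (h3 : 3 * i3 = 1)
    (h : j * s ^ 9 * (s ^ 2 + 9 * s + 27) =
      ((s + 9) * (s ^ 3 + 243 * s ^ 2 + 2187 * s + 6561)) ^ 3) :
    IsUnit s ∧ IsUnit (s ^ 2 + 9 * s + 27) := by
  have e30 : (3 : R) ^ 30 * i3 ^ 30 = 1 := by rw [← mul_pow, h3, one_pow]
  have e18 : (3 : R) ^ 18 * i3 ^ 18 = 1 := by rw [← mul_pow, h3, one_pow]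
  constructor
  · refine IsUnit.of_mul_eq_one ((j * s ^ 8 * (s ^ 2 + 9 * s + 27) - cOne s) * i3 ^ 30) ?_
    have h1 : s * (j * s ^ 8 * (s ^ 2 + 9 * s + 27) - cOne s) = 3 ^ 30 := by
      linear_combination h + c_eq_cOne s
    rw [← mul_assoc, h1, e30]
  · refine IsUnit.of_mul_eq_one ((j * s ^ 9 - cQuot s) * i3 ^ 18) ?_
    have h1 : (s ^ 2 + 9 * s + 27) * (j * s ^ 9 - cQuot s) = 3 ^ 18 := by
      linear_combination h + c_eq_cQuot s
    rw [← mul_assoc, h1, e18]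

end Cofactors

/-! ### Base change and level raising -/

variable (K : Type) [Field K] [CharZero K] (N : ℕ) [NeZero N] (O : Subring K)

/-- `FF ℚ 9 → FF K N`, `9 ∣ N`. -/
noncomputable def toLevel (h9 : 9 ∣ N) : FF ℚ 9 →+* FF K N :=
  (inclF K h9).toRingHom.comp (ffMap (algebraMap ℚ K) 9)

theorem coe_toLevel (h9 : 9 ∣ N) (x : FF ℚ 9) :
    ((toLevel K N h9 x : FF K N) : LaurentSeries K) =
      coeffMap (algebraMap ℚ K) (x : LaurentSeries ℚ) := by
  rw [toLevel, RingHom.comp_apply]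
  exact coe_inclF K h9 _

theorem toLevel_jF (h9 : 9 ∣ N) : toLevel K N h9 (jF ℚ 9) = jF K N := by
  rw [toLevel, RingHom.comp_apply, ffMap_jF]
  exact inclF_jF K h9

/-- **The Hauptmodul of level `9` in `FF K N`.** -/
noncomputable def sK (h9 : 9 ∣ N) : FF K N := toLevel K N h9 sF

theorem coe_sK (h9 : 9 ∣ N) :
    ((sK K N h9 : FF K N) : LaurentSeries K) = coeffMap (algebraMap ℚ K) sL := by
  rw [sK, coe_toLevel, coe_sF]

theorem jF_mul_sK (h9 : 9 ∣ N) :
    jF K N * sK K N h9 ^ 9 * (sK K N h9 ^ 2 + 9 * sK K N h9 + 27) =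
      (sK K N h9 + 9) ^ 3 *
        (sK K N h9 ^ 3 + 243 * sK K N h9 ^ 2 + 2187 * sK K N h9 + 6561) ^ 3 := by
  have h := congrArg (toLevel K N h9) jF_mul_sF
  simpa only [map_mul, map_pow, map_add, map_ofNat, toLevel_jF, sK] using h

/-- The generator `j` of `O[j]`. -/
noncomputable def jAdj : ↥(Algebra.adjoin ↥O ({jF K N} : Set (FF K N))) :=
  ⟨jF K N, Algebra.subset_adjoin rfl⟩

/-- **`s` lies in the finite chart.** -/
theorem sK_mem (h9 : 9 ∣ N) : sK K N h9 ∈ Rfin K N O := by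
  rw [mem_chartAlg_iff]
  exact isIntegral_of_rel (jAdj K N O) (sK K N h9) (jF_mul_sK K N h9)

/-- The Hauptmodul as an element of the finite chart. -/
noncomputable def sFin (h9 : 9 ∣ N) : Rfin K N O := ⟨sK K N h9, sK_mem K N O h9⟩

@[simp] theorem coe_sFin (h9 : 9 ∣ N) : ((sFin K N O h9 : Rfin K N O) : FF K N) = sK K N h9 := rfl

/-- **The `j`-identity in the finite chart** (helper25's `Rel9` shape). -/
theorem jFin_mul_sFin (h9 : 9 ∣ N) :
    jFin K N O * sFin K N O h9 ^ 9 * (sFin K N O h9 ^ 2 + 9 * sFin K N O h9 + 27) =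
      ((sFin K N O h9 + 9) *
        (sFin K N O h9 ^ 3 + 243 * sFin K N O h9 ^ 2 + 2187 * sFin K N O h9 + 6561)) ^ 3 := by
  apply Subtype.ext
  push_cast
  rw [mul_pow]
  exact jF_mul_sK K N h9

/-- `3⁻¹` in the chart. -/
noncomputable def invThree (h3 : (3 : K)⁻¹ ∈ O) : Rfin K N O :=
  algebraMap ↥O (Rfin K N O) ⟨(3 : K)⁻¹, h3⟩

theorem three_mul_invThree (h3 : (3 : K)⁻¹ ∈ O) : (3 : Rfin K N O) * invThree K N O h3 = 1 := by
  have h0 : (3 : ↥O) * ⟨(3 : K)⁻¹, h3⟩ = 1 := by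
    apply Subtype.ext
    push_cast
    exact mul_inv_cancel₀ (by norm_num)
  have h1 := congrArg (algebraMap ↥O (Rfin K N O)) h0
  rwa [map_mul, map_ofNat, map_one] at h1

/-- **The Hauptmodul of level `9` in the finite chart: it is a unit, so is `s² + 9 s + 27`, and
`j s⁹ (s² + 9 s + 27) = ((s + 9)(s³ + 243 s² + 2187 s + 6561))³`.** -/
theorem exists_hauptmodul (h9 : 9 ∣ N) (h3 : (3 : K)⁻¹ ∈ O) :
    ∃ s : Rfin K N O, IsUnit s ∧ IsUnit (s ^ 2 + 9 * s + 27) ∧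
      jFin K N O * s ^ 9 * (s ^ 2 + 9 * s + 27) =
        ((s + 9) * (s ^ 3 + 243 * s ^ 2 + 2187 * s + 6561)) ^ 3 ∧
      ((s : FF K N) : LaurentSeries K) = coeffMap (algebraMap ℚ K) sL := by
  obtain ⟨hs, hm⟩ := units_of_rel (jFin K N O) (sFin K N O h9) (invThree K N O h3)
    (three_mul_invThree K N O h3) (jFin_mul_sFin K N O h9)
  exact ⟨sFin K N O h9, hs, hm, jFin_mul_sFin K N O h9, coe_sK K N h9⟩

/-- **Consumer form for `q = 2`** (helper10 #1603, accepted in #1613):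
`j = c · u` with `u` a unit and `c ≡ e¹² mod 2`. -/
theorem exists_twelfth (h9 : 9 ∣ N) (h3 : (3 : K)⁻¹ ∈ O) :
    ∃ c u e r : Rfin K N O, IsUnit u ∧ jFin K N O = c * u ∧ c = e ^ 12 + 2 * r := by
  obtain ⟨s, hs, hm, hrel, -⟩ := exists_hauptmodul K N O h9 h3
  have hu : IsUnit (s ^ 9 * (s ^ 2 + 9 * s + 27)) := (hs.pow 9).mul hm
  obtain ⟨v, hv⟩ := hu
  refine ⟨((s + 9) * (s ^ 3 + 243 * s ^ 2 + 2187 * s + 6561)) ^ 3, ((v⁻¹ : (Rfin K N O)ˣ) : _),
    s + 1, cHalf s, Units.isUnit _, ?_, c_eq_cHalf s⟩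
  rw [← hrel, mul_assoc (jFin K N O), ← hv, mul_assoc, Units.mul_inv, mul_one]

end Fermat.Agent.S36.Haupt.NineRfin
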