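import Mathlib
import Fermat.Agent.S36.Haupt.Forms

/-!
# S36 / [AUX-H], step 3 (helper10): the ring of modular forms of level `3`

With `B = 3 E₂(3z) − E₂(z) = 2 + 24 ∑ σ'(n) qⁿ` (`S16.EisP.eisP 3`, weight `2` on `Γ₀(3)`):

* `64 B E₆ = 27 B⁴ − 72 B² E₄ − 16 E₄²`,
* `18 E₄(3z) = 5 B² − 2 E₄`,
* `216 E₆(3z) = 35 B³ − 28 B E₄ − 8 E₆`,

as identities of `q`-expansions in `ℂ⟦X⟧` (`qBE6_eq3`, `qE4v_eq3`, `qE6v_eq3`).  Each is a form of
weight `≤ 8` on `Γ₀(3)`, so by the Sturm bound (`Forms.eq_zero_of_jet`) only the coefficients of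
`1, q, q²` have to be compared.
-/

set_option autoImplicit false

noncomputable section

namespace Fermat.Agent.S36.Haupt.Forms3

open UpperHalfPlane ModularForm CongruenceSubgroup PowerSeries
open scoped MatrixGroups Manifold ModularForm
open Fermat.Agent.M2 Fermat.Agent.M2F Fermat.Agent.S24.QExp Fermat.Agent.S36.Haupt.Forms
open Fermat.Agent.S16.EisP

instance : Fact (Nat.Prime 3) := ⟨Nat.prime_three⟩

local notation "B" => Bf 3

theorem jet_C_int (c : ℤ) : jet (C (c : ℂ)) = ((c : ℤ) : ℂ⟦X⟧ ⧸ I3) := by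
  have : (C (c : ℂ) : ℂ⟦X⟧) = ((c : ℤ) : ℂ⟦X⟧) := map_intCast _ c
  rw [this, map_intCast]

theorem jet_qB3 : jet (qB 3) = 2 + 24 * xi + 72 * xi ^ 2 := by
  rw [jet_qB 3 1 3 (by decide) (by decide)]
  push_cast
  ring

theorem jet_qE4v3 : jet (expand 3 three_ne_zero qE4) = 1 := by
  rw [jet_expand_of_three_le three_ne_zero le_rfl qE4 1 ?_]
  · push_cast; rfl
  · rw [coeff_qE4, coeff_e4Z]; congr 1

theorem jet_qE6v3 : jet (expand 3 three_ne_zero qE6) = 1 := by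
  rw [jet_expand_of_three_le three_ne_zero le_rfl qE6 1 ?_]
  · push_cast; rfl
  · rw [coeff_qE6, coeff_e6Z]; congr 1

/-! ### `64 B E₆ = 27 B⁴ − 72 B² E₄ − 16 E₄²` -/

/-- `64 B E₆ − 27 B⁴ + 72 B² E₄ + 16 E₄²`. -/
def G1 : ℍ → ℂ :=
  cst 64 * (B * E6f) + cst (-27) * B ^ 4 + cst 72 * (B ^ 2 * E4f) + cst 16 * E4f ^ 2

theorem isMF_G1 : IsMF (Gamma0 3) 8 G1 := by
  have h1 : IsMF (Gamma0 3) 8 (cst 64 * (B * E6f)) :=
    ((isMF_cst 64).mul ((isMF_B 3).mul (isMF_E6 3))).of_weight_eq (by norm_num)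
  have h2 : IsMF (Gamma0 3) 8 (cst (-27) * B ^ 4) :=
    ((isMF_cst (-27)).mul ((isMF_B 3).pow 4)).of_weight_eq (by norm_num)
  have h3 : IsMF (Gamma0 3) 8 (cst 72 * (B ^ 2 * E4f)) :=
    ((isMF_cst 72).mul (((isMF_B 3).pow 2).mul (isMF_E4 3))).of_weight_eq (by norm_num)
  have h4 : IsMF (Gamma0 3) 8 (cst 16 * E4f ^ 2) :=
    ((isMF_cst 16).mul ((isMF_E4 3).pow 2)).of_weight_eq (by norm_num)
  exact ((h1.add h2).add h3).add h4

theorem qExpansion_G1 :
    qExpansion 1 G1 = C 64 * (qB 3 * qE6) + C (-27) * qB 3 ^ 4 + C 72 * (qB 3 ^ 2 * qE4) +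
      C 16 * qE4 ^ 2 := by
  have hB := isHol_B 3
  have a1 := (isHol_cst 64).mul (hB.mul isHol_E6)
  have a2 := (isHol_cst (-27)).mul (hB.pow 4)
  have a3 := (isHol_cst 72).mul ((hB.pow 2).mul isHol_E4)
  have a4 := (isHol_cst 16).mul (isHol_E4.pow 2)
  rw [G1, ((a1.add a2).add a3).qExpansion_add a4, (a1.add a2).qExpansion_add a3,
    a1.qExpansion_add a2, (isHol_cst 64).qExpansion_mul (hB.mul isHol_E6),
    (isHol_cst (-27)).qExpansion_mul (hB.pow 4),
    (isHol_cst 72).qExpansion_mul ((hB.pow 2).mul isHol_E4),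
    (isHol_cst 16).qExpansion_mul (isHol_E4.pow 2), hB.qExpansion_mul isHol_E6,
    (hB.pow 2).qExpansion_mul isHol_E4, hB.qExpansion_pow, hB.qExpansion_pow,
    isHol_E4.qExpansion_pow, qExpansion_cst, qExpansion_cst, qExpansion_cst, qExpansion_cst]
  rfl

theorem G1_eq_zero : G1 = 0 := by
  refine eq_zero_of_jet (p := 3) (k := 8) (w := 8) (by norm_num) (by decide) (by norm_num)
    isMF_G1 ?_
  have c1 : jet (C (64 : ℂ)) = 64 := by
    have := jet_C_int 64; push_cast at this; exact this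
  have c2 : jet (C (-27 : ℂ)) = -27 := by
    have := jet_C_int (-27); push_cast at this; exact this
  have c3 : jet (C (72 : ℂ)) = 72 := by
    have := jet_C_int 72; push_cast at this; exact this
  have c4 : jet (C (16 : ℂ)) = 16 := by
    have := jet_C_int 16; push_cast at this; exact this
  simp only [qExpansion_G1, map_add, map_mul, map_pow, jet_qE6, jet_qE4, jet_qB3, c1, c2, c3, c4]
  linear_combination (13602816 + 153280512 * xi + 438939648 * xi ^ 2 + 241864704 * xi ^ 3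
    - 967458816 * xi ^ 4 - 725594112 * xi ^ 5) * xi_cube

/-- **`64 B E₆ = 27 B⁴ − 72 B² E₄ − 16 E₄²`** (`q`-expansions). -/
theorem qBE6_eq3 :
    C 64 * (qB 3 * qE6) = C 27 * qB 3 ^ 4 - C 72 * (qB 3 ^ 2 * qE4) - C 16 * qE4 ^ 2 := by
  have h := qExpansion_G1
  rw [G1_eq_zero, qExpansion_zero] at h
  have h27 : (C (-27 : ℂ) : ℂ⟦X⟧) = -C 27 := by rw [← map_neg]
  rw [h27] at h
  linear_combination -h

/-! ### `18 E₄(3z) = 5 B² − 2 E₄` -/

/-- `18 E₄(3z) − 5 B² + 2 E₄`. -/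
def G2 : ℍ → ℂ := cst 18 * vp 3 E4f + cst (-5) * B ^ 2 + cst 2 * E4f

theorem isMF_G2 : IsMF (Gamma0 3) 4 G2 := by
  have h1 : IsMF (Gamma0 3) 4 (cst 18 * vp 3 E4f) :=
    ((isMF_cst 18).mul (isMF_E4v 3)).of_weight_eq (by norm_num)
  have h2 : IsMF (Gamma0 3) 4 (cst (-5) * B ^ 2) :=
    ((isMF_cst (-5)).mul ((isMF_B 3).pow 2)).of_weight_eq (by norm_num)
  have h3 : IsMF (Gamma0 3) 4 (cst 2 * E4f) :=
    ((isMF_cst 2).mul (isMF_E4 3)).of_weight_eq (by norm_num)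
  exact (h1.add h2).add h3

theorem qExpansion_G2 :
    qExpansion 1 G2 = C 18 * expand 3 three_ne_zero qE4 + C (-5) * qB 3 ^ 2 + C 2 * qE4 := by
  have hB := isHol_B 3
  have hv := isHol_E4v 3
  have a1 := (isHol_cst 18).mul hv
  have a2 := (isHol_cst (-5)).mul (hB.pow 2)
  have a3 := (isHol_cst 2).mul isHol_E4
  rw [G2, (a1.add a2).qExpansion_add a3, a1.qExpansion_add a2, (isHol_cst 18).qExpansion_mul hv,
    (isHol_cst (-5)).qExpansion_mul (hB.pow 2), (isHol_cst 2).qExpansion_mul isHol_E4,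
    hB.qExpansion_pow, qExpansion_cst, qExpansion_cst, qExpansion_cst, qExpansion_E4v]
  rfl

theorem G2_eq_zero : G2 = 0 := by
  refine eq_zero_of_jet (p := 3) (k := 4) (w := 4) (by norm_num) (by decide) (by norm_num)
    isMF_G2 ?_
  have c1 : jet (C (18 : ℂ)) = 18 := by
    have := jet_C_int 18; push_cast at this; exact this
  have c2 : jet (C (-5 : ℂ)) = -5 := by
    have := jet_C_int (-5); push_cast at this; exact this
  have c3 : jet (C (2 : ℂ)) = 2 := by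
    have := jet_C_int 2; push_cast at this; exact this
  simp only [qExpansion_G2, map_add, map_mul, map_pow, jet_qE4v3, jet_qE4, jet_qB3, c1, c2, c3]
  linear_combination (-17280 - 25920 * xi) * xi_cube

/-- **`18 E₄(3z) = 5 B² − 2 E₄`** (`q`-expansions). -/
theorem qE4v_eq3 : C 18 * expand 3 three_ne_zero qE4 = C 5 * qB 3 ^ 2 - C 2 * qE4 := by
  have h := qExpansion_G2
  rw [G2_eq_zero, qExpansion_zero] at h
  have h5 : (C (-5 : ℂ) : ℂ⟦X⟧) = -C 5 := by rw [← map_neg]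
  rw [h5] at h
  linear_combination -h

/-! ### `216 E₆(3z) = 35 B³ − 28 B E₄ − 8 E₆` -/

/-- `216 E₆(3z) − 35 B³ + 28 B E₄ + 8 E₆`. -/
def G3 : ℍ → ℂ :=
  cst 216 * vp 3 E6f + cst (-35) * B ^ 3 + cst 28 * (B * E4f) + cst 8 * E6f

theorem isMF_G3 : IsMF (Gamma0 3) 6 G3 := by
  have h1 : IsMF (Gamma0 3) 6 (cst 216 * vp 3 E6f) :=
    ((isMF_cst 216).mul (isMF_E6v 3)).of_weight_eq (by norm_num)
  have h2 : IsMF (Gamma0 3) 6 (cst (-35) * B ^ 3) :=
    ((isMF_cst (-35)).mul ((isMF_B 3).pow 3)).of_weight_eq (by norm_num)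
  have h3 : IsMF (Gamma0 3) 6 (cst 28 * (B * E4f)) :=
    ((isMF_cst 28).mul ((isMF_B 3).mul (isMF_E4 3))).of_weight_eq (by norm_num)
  have h4 : IsMF (Gamma0 3) 6 (cst 8 * E6f) :=
    ((isMF_cst 8).mul (isMF_E6 3)).of_weight_eq (by norm_num)
  exact ((h1.add h2).add h3).add h4

theorem qExpansion_G3 :
    qExpansion 1 G3 = C 216 * expand 3 three_ne_zero qE6 + C (-35) * qB 3 ^ 3 +
      C 28 * (qB 3 * qE4) + C 8 * qE6 := by
  have hB := isHol_B 3
  have hv := isHol_E6v 3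
  have a1 := (isHol_cst 216).mul hv
  have a2 := (isHol_cst (-35)).mul (hB.pow 3)
  have a3 := (isHol_cst 28).mul (hB.mul isHol_E4)
  have a4 := (isHol_cst 8).mul isHol_E6
  rw [G3, ((a1.add a2).add a3).qExpansion_add a4, (a1.add a2).qExpansion_add a3,
    a1.qExpansion_add a2, (isHol_cst 216).qExpansion_mul hv,
    (isHol_cst (-35)).qExpansion_mul (hB.pow 3), (isHol_cst 28).qExpansion_mul (hB.mul isHol_E4),
    (isHol_cst 8).qExpansion_mul isHol_E6, hB.qExpansion_mul isHol_E4, hB.qExpansion_pow,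
    qExpansion_cst, qExpansion_cst, qExpansion_cst, qExpansion_cst, qExpansion_E6v]
  rfl

theorem G3_eq_zero : G3 = 0 := by
  refine eq_zero_of_jet (p := 3) (k := 6) (w := 6) (by norm_num) (by decide) (by norm_num)
    isMF_G3 ?_
  have c1 : jet (C (216 : ℂ)) = 216 := by
    have := jet_C_int 216; push_cast at this; exact this
  have c2 : jet (C (-35 : ℂ)) = -35 := by
    have := jet_C_int (-35); push_cast at this; exact this
  have c3 : jet (C (28 : ℂ)) = 28 := by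
    have := jet_C_int 28; push_cast at this; exact this
  have c4 : jet (C (8 : ℂ)) = 8 := by
    have := jet_C_int 8; push_cast at this; exact this
  simp only [qExpansion_G3, map_add, map_mul, map_pow, jet_qE6v3, jet_qE4, jet_qE6, jet_qB3,
    c1, c2, c3, c4]
  linear_combination (725760 - 1088640 * xi - 13063680 * xi ^ 2 - 13063680 * xi ^ 3) * xi_cube

/-- **`216 E₆(3z) = 35 B³ − 28 B E₄ − 8 E₆`** (`q`-expansions). -/
theorem qE6v_eq3 :
    C 216 * expand 3 three_ne_zero qE6 = C 35 * qB 3 ^ 3 - C 28 * (qB 3 * qE4) - C 8 * qE6 := by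
  have h := qExpansion_G3
  rw [G3_eq_zero, qExpansion_zero] at h
  have h35 : (C (-35 : ℂ) : ℂ⟦X⟧) = -C 35 := by rw [← map_neg]
  rw [h35] at h
  linear_combination -h

end Fermat.Agent.S36.Haupt.Forms3

end
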